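import Fermat.Agent.Pic.Cech.Dual

/-!
# Values of an invertible datum at rational points of the overlap

At a rational point of the overlap there is a functional detecting vanishing; a nonzero element
vanishes at only finitely many of them.
-/

noncomputable section

open TensorProduct
open Fermat.Agent.Pic.Cech

namespace Fermat.Agent.Pic.Field

universe u

variable {k : Type u} [Field k] {B : Type u} [CommRing B] [Algebra k B]
  (K : Type u) [Field K] [Algebra k K]

/-- Evaluation at a rational point over `K`. -/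
def evalAlg (χ : B →ₐ[k] k) : K ⊗[k] B →ₐ[K] K :=
  Algebra.TensorProduct.lift (AlgHom.id K K) ((Algebra.ofId k K).comp χ) fun _ _ => mul_comm _ _

@[simp] theorem evalAlg_tmul (χ : B →ₐ[k] k) (a : K) (b : B) :
    evalAlg K χ (a ⊗ₜ[k] b) = a * algebraMap k K (χ b) := by
  simp [evalAlg, Algebra.ofId_apply]

theorem finite_evalAlg_zero (hz : ∀ b : B, b ≠ 0 → {χ : B →ₐ[k] k | χ b = 0}.Finite)
    {z : K ⊗[k] B} (h : z ≠ 0) : {χ : B →ₐ[k] k | evalAlg K χ z = 0}.Finite := by
  classical
  let bas := Module.Free.chooseBasis k K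
  let e := TensorProduct.equivFinsuppOfBasisLeft (N := B) bas
  obtain ⟨i, hi⟩ : ∃ i, e z i ≠ 0 := by
    by_contra! hall
    exact h (e.injective (Finsupp.ext fun i => by rw [hall i, map_zero, Finsupp.zero_apply]))
  refine (hz _ hi).subset fun χ hχ => ?_
  have key : ∀ w, χ (e w i) = bas.repr (evalAlg K χ w) i := by
    intro w
    induction w using TensorProduct.induction_on with
    | zero => simp
    | tmul a b =>
      rw [evalAlg_tmul, TensorProduct.equivFinsuppOfBasisLeft_apply_tmul_apply, map_smul,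
          mul_comm a,
        ← Algebra.smul_def, map_smul, Finsupp.smul_apply, smul_eq_mul, smul_eq_mul, mul_comm]
    | add x y hx hy => simp only [map_add, Finsupp.add_apply, hx, hy]
  show χ (e z i) = 0
  rw [key, hχ, map_zero, Finsupp.zero_apply]

variable {K} {C : Cover k}

/-- On the first chart `1` is a sum of values of functionals. -/
theorem exists_partition (L : Datum C K) :
    ∃ (n : ℕ) (ψ : Fin n → Module.Dual (C.RB0 K) L.N0) (x : Fin n → L.N0),
      ∑ i, ψ i (x i) = 1 := by
  obtain ⟨z, hz⟩ := (Module.Invertible.bijective (R := C.RB0 K) (M := L.N0)).2 1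
  obtain ⟨n, g, hg⟩ : ∃ (n : ℕ) (g : Fin n → Module.Dual (C.RB0 K) L.N0 × L.N0),
      z = ∑ i, (g i).1 ⊗ₜ[C.RB0 K] (g i).2 := by
    obtain ⟨s, hs⟩ := TensorProduct.exists_finset z
    refine ⟨s.card, fun i => (s.equivFin.symm i).1, hs.trans ?_⟩
    rw [← Finset.sum_coe_sort]
    exact (Equiv.sum_comp s.equivFin.symm (fun i => i.1.1 ⊗ₜ[C.RB0 K] i.1.2)).symm
  exact ⟨n, fun i => (g i).1, fun i => (g i).2, by rw [← hz, hg, map_sum]; simp⟩

/-- A functional detecting vanishing at a rational point. -/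
theorem exists_valueFunctional (L : Datum C K) (χ : C.B01 →ₐ[k] k) :
    ∃ φ : Module.Dual (C.RB01 K) L.N01, ∀ (ψ : Module.Dual (C.RB01 K) L.N01) (v : L.N01),
      evalAlg K χ (φ v) = 0 → evalAlg K χ (ψ v) = 0 := by
  obtain ⟨n, ψ, x, h⟩ := exists_partition L
  have h1 : ∑ i, evalAlg K χ (L.toPre.dualF0 (ψ i) (L.f0 (x i))) = 1 := by
    simp only [Pre.dualF0_apply, ← map_sum, h, map_one]
  obtain ⟨i, hi⟩ : ∃ i, evalAlg K χ (L.toPre.dualF0 (ψ i) (L.f0 (x i))) ≠ 0 := by
    by_contra! hall
    rw [Finset.sum_eq_zero fun i _ => hall i] at h1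
    exact zero_ne_one h1
  refine ⟨L.toPre.dualF0 (ψ i), fun ω v hv => ?_⟩
  set φ := L.toPre.dualF0 (ψ i)
  have h2 := congrArg (fun w => evalAlg K χ (φ w)) (L.smul_comm01 ω v (L.f0 (x i)))
  simp only [map_smul, smul_eq_mul, map_mul, hv, mul_zero] at h2
  exact (mul_eq_zero.mp h2).resolve_right hi

/-- The value at a rational point. -/
def value (L : Datum C K) (χ : C.B01 →ₐ[k] k) : L.N01 →ₗ[K] K :=
  (evalAlg K χ).toLinearMap ∘ₗ ((exists_valueFunctional L χ).choose.restrictScalars K)

theorem eval_eq_zero_of_value (L : Datum C K) (χ : C.B01 →ₐ[k] k)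
    (ψ : Module.Dual (C.RB01 K) L.N01) {v : L.N01} (h : value L χ v = 0) :
    evalAlg K χ (ψ v) = 0 :=
  (exists_valueFunctional L χ).choose_spec ψ v h

/-- A nonzero vector vanishes at finitely many rational points. -/
theorem finite_value_zero (hz : ∀ b : C.B01, b ≠ 0 → {χ : C.B01 →ₐ[k] k | χ b = 0}.Finite)
    (L : Datum C K) {v : L.N01} (hv : v ≠ 0) :
    {χ : C.B01 →ₐ[k] k | value L χ v = 0}.Finite := by
  obtain ⟨ψ, hψ⟩ : ∃ ψ : Module.Dual (C.RB01 K) L.N01, ψ v ≠ 0 := by
    by_contra! hall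
    exact hv (L.toPre.reflexive01.1 ((LinearMap.ext hall).trans (map_zero _).symm))
  exact (finite_evalAlg_zero K hz hψ).subset fun χ hχ => eval_eq_zero_of_value L χ ψ hχ

theorem f0_injective (L : Datum C K) : Function.Injective L.f0 :=
  (injective_iff_map_eq_zero L.f0).mpr fun x hx => by
    refine (Module.forall_dual_apply_eq_zero_iff (C.RB0 K) x).mp fun ψ => C.ρ0_injective K ?_
    rw [← L.toPre.dualF0_apply ψ x, hx, map_zero, map_zero]

theorem f1_injective (L : Datum C K) : Function.Injective L.f1 :=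
  (injective_iff_map_eq_zero L.f1).mpr fun x hx => by
    refine (Module.forall_dual_apply_eq_zero_iff (C.RB1 K) x).mp fun ψ => C.ρ1_injective K ?_
    rw [← L.toPre.dualF1_apply ψ x, hx, map_zero, map_zero]

/-- A nonzero section is nonzero on the overlap. -/
theorem f0_ne_zero (L : Datum C K) {s : L.toPre.H0} (hs : s ≠ 0) : L.f0 s.1.1 ≠ 0 := fun h =>
  hs <| Subtype.ext <| Prod.ext (f0_injective L (h.trans (map_zero _).symm))
    (f1_injective L (show L.f1 s.1.2 = L.f1 0 by rw [← L.toPre.mem_H0.mp s.2, h, map_zero]))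

end Fermat.Agent.Pic.Field
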