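import Fermat.Agent.Pic.Cech.Cuts
import Fermat.Agent.Pic.Field.Eval

/-!
# A family cut out by a section over a field

`exists_cuts`: over a field, a nonzero section without zeros on the zeros of the parameters cuts
out some family of functions of the overlap defined over the ground field.
-/

noncomputable section

open TensorProduct
open Fermat.Agent.Pic.Cech

namespace Fermat.Agent.Pic.Field

universe u

variable {k : Type u} [Field k] {K : Type u} [Field K] [Algebra k K] {C : Cover k}

/-- A family in `B` whose pure tensors form a basis of a finite quotient of `K ⊗ B`. -/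
theorem exists_tmul_basis {B : Type u} [CommRing B] [Algebra k B]
    (W : Submodule K (K ⊗[k] B)) [Module.Finite K ((K ⊗[k] B) ⧸ W)] :
    ∃ (n : ℕ) (e : ULift.{u} (Fin n) → B),
      Function.Bijective (W.mkQ ∘ₗ Hilb.Pt.σ e K) := by
  classical
  set g : B → (K ⊗[k] B) ⧸ W := fun b => W.mkQ ((1 : K) ⊗ₜ[k] b)
  have hspan : Submodule.span K (Set.range g) = ⊤ := by
    rw [eq_top_iff]
    rintro q -
    obtain ⟨t, rfl⟩ := W.mkQ_surjective q
    induction t using TensorProduct.induction_on with
    | zero => exact zero_mem _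
    | tmul a b =>
      rw [show a ⊗ₜ[k] b = a • ((1 : K) ⊗ₜ[k] b) by rw [smul_tmul', smul_eq_mul, mul_one],
        map_smul]
      exact Submodule.smul_mem _ a (Submodule.subset_span ⟨b, rfl⟩)
    | add x y hx hy => rw [map_add]; exact add_mem hx hy
  obtain ⟨T, hT, hTspan, hli⟩ := exists_linearIndependent K (Set.range g)
  have hTf : T.Finite := hli.setFinite
  let T' := hTf.toFinset
  let idx : ULift.{u} (Fin T'.card) ≃ T := Equiv.ulift.trans
    (T'.equivFin.symm.trans (Equiv.subtypeEquivRight fun _ => hTf.mem_toFinset))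
  choose b hb using fun i => hT (idx i).2
  refine ⟨T'.card, b, ?_⟩
  have hfam : (fun i => W.mkQ ((1 : K) ⊗ₜ[k] b i)) = Subtype.val ∘ idx := funext hb
  have hli' : LinearIndependent K fun i => W.mkQ ((1 : K) ⊗ₜ[k] b i) := by
    rw [hfam]; exact hli.comp idx idx.injective
  have hcomp : W.mkQ ∘ₗ Hilb.Pt.σ b K =
      Fintype.linearCombination K fun i => W.mkQ ((1 : K) ⊗ₜ[k] b i) := by
    refine LinearMap.ext fun v => ?_
    rw [LinearMap.comp_apply, Hilb.Pt.σ, Fintype.linearCombination_apply,
      Fintype.linearCombination_apply, map_sum]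
    simp only [map_smul]
  rw [hcomp]
  refine ⟨LinearIndependent.fintypeLinearCombination_injective hli', LinearMap.range_eq_top.mp ?_⟩
  rw [Fintype.range_linearCombination, hfam, Set.range_comp, idx.surjective.range_eq,
    Set.image_univ, Subtype.range_coe, hTspan, hspan]

/-- A functional on the overlap vanishing at a nonzero vector vanishes. -/
theorem eval_injective (L : Datum C K) [IsDomain (C.RB01 K)] {z : L.N01} (hz : z ≠ 0) :
    Function.Injective (Module.Dual.eval (C.RB01 K) L.N01 z) := by
  refine (injective_iff_map_eq_zero _).mpr fun ψ hψ => LinearMap.ext fun v => ?_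
  obtain ⟨φ, hφ⟩ : ∃ φ : Module.Dual (C.RB01 K) L.N01, φ z ≠ 0 := by
    by_contra! hall
    exact hz (L.toPre.reflexive01.1 ((LinearMap.ext hall).trans (map_zero _).symm))
  have h := congrArg φ (L.smul_comm01 ψ z v)
  rw [map_smul, map_smul, smul_eq_mul, smul_eq_mul, show ψ z = 0 from hψ, zero_mul] at h
  exact (mul_eq_zero.mp h.symm).resolve_right hφ

/-- A nonzero section without zeros on the zeros of the parameters cuts out some family. -/
theorem exists_cuts (L : Datum C K) [IsDomain (C.RB01 K)] (s : L.toPre.H0) (hs : s ≠ 0)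
    (h0 : Function.Surjective (L.toPre.cut0 s.1.1))
    (h1 : Function.Surjective (L.toPre.cut1 s.1.2)) :
    ∃ (n : ℕ) (e : ULift.{u} (Fin n) → C.B01), L.toPre.Cuts e s := by
  have := L.finite_zeros s h0 h1
  obtain ⟨n, e, he⟩ := exists_tmul_basis ((L.toPre.zeroIdeal s.1.1).restrictScalars K)
  have hz : L.f0 s.1.1 ≠ 0 := f0_ne_zero L hs
  refine ⟨n, e, h0, h1, (injective_iff_map_eq_zero _).mpr ?_, fun a => ?_⟩
  · rintro ⟨χ, v⟩ hq
    rw [Pre.cut01_apply] at hq
    have hv : v = 0 := by
      refine (injective_iff_map_eq_zero _).mp he.1 v ((Submodule.Quotient.mk_eq_zero _).mpr ?_)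
      exact ⟨-χ, by
        show -(χ (L.f0 s.1.1)) = _
        exact neg_eq_of_add_eq_zero_right hq⟩
    subst hv
    rw [map_zero, add_zero] at hq
    exact Prod.ext (eval_injective L hz (hq.trans (map_zero _).symm)) rfl
  · obtain ⟨v, hv⟩ := he.2 (Submodule.Quotient.mk a)
    obtain ⟨χ, hχ⟩ := (Submodule.Quotient.eq _).mp hv.symm
    refine ⟨(χ, v), ?_⟩
    rw [Pre.cut01_apply]
    have hχ' : χ (L.f0 s.1.1) = a - Hilb.Pt.σ e K v := hχ
    rw [hχ', sub_add_cancel]

end Fermat.Agent.Pic.Field
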