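import Fermat.Agent.Pic.Field.Functionals

/-!
# Cutting spaces down to lines by evaluations

With infinitely many functionals, each nonzero vector killed by only finitely many, one finite set
of them cuts two subspaces of equal dimension down to lines avoiding given proper subspaces; in
particular some finite set cuts a space down to such a line (`exists_finset_cut`).
-/

noncomputable section

namespace Fermat.Agent.Pic.Field

variable {K V V' : Type*} [Field K] [AddCommGroup V] [Module K V] [AddCommGroup V'] [Module K V']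
  {ι : Type*}

/-- Cutting two subspaces of dimension `n + 1` by `n` functionals outside a finite set. -/
theorem exists_pair_cut_aux [DecidableEq ι] [FiniteDimensional K V] [FiniteDimensional K V']
    [Infinite ι] (ev : ι → V →ₗ[K] K) (hev : ∀ v : V, v ≠ 0 → {i | ev i v = 0}.Finite)
    (H : Set (Submodule K V)) (hH : H.Finite) (ev' : ι → V' →ₗ[K] K)
    (hev' : ∀ v : V', v ≠ 0 → {i | ev' i v = 0}.Finite)
    (H' : Set (Submodule K V')) (hH' : H'.Finite) :
    ∀ (n : ℕ) (W : Submodule K V) (W' : Submodule K V'), Module.finrank K W = n + 1 →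
      Module.finrank K W' = n + 1 → (∀ U ∈ H, ¬W ≤ U) → (∀ U ∈ H', ¬W' ≤ U) →
      ∀ F : Finset ι, ∃ S : Finset ι, S.card = n ∧ Disjoint S F ∧
        ∃ s s', IsCutBy ev H W S s ∧ IsCutBy ev' H' W' S s' := by
  intro n
  induction n with
  | zero =>
    intro W W' hW hW' hWU hWU' F
    obtain ⟨s, hs⟩ := isCutBy_empty ev hW hWU
    obtain ⟨s', hs'⟩ := isCutBy_empty ev' hW' hWU'
    exact ⟨∅, rfl, Finset.disjoint_empty_left F, s, s', hs, hs'⟩
  | succ n ih =>
    intro W W' hW hW' hWU hWU' F
    obtain ⟨bad, hbad⟩ := exists_bad_finset ev hev H hH n W hW hWU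
    obtain ⟨bad', hbad'⟩ := exists_bad_finset ev' hev' H' hH' n W' hW' hWU'
    obtain ⟨i, hi⟩ := Infinite.exists_notMem_finset (bad ∪ bad' ∪ F)
    simp only [Finset.mem_union, not_or] at hi
    obtain ⟨⟨hib, hib'⟩, hiF⟩ := hi
    obtain ⟨hr, hn⟩ := hbad i hib
    obtain ⟨hr', hn'⟩ := hbad' i hib'
    obtain ⟨S, hS, hSF, s, s', hs, hs'⟩ := ih _ _ hr hr' hn hn' (insert i F)
    have hiS : i ∉ S := fun h => Finset.disjoint_left.mp hSF h (Finset.mem_insert_self i F)
    exact ⟨insert i S, by rw [Finset.card_insert_of_notMem hiS, hS],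
      Finset.disjoint_insert_left.mpr ⟨hiF, hSF.mono_right (Finset.subset_insert i F)⟩,
      s, s', hs.insert, hs'.insert⟩

/-- A finite set of functionals cutting a space down to a line outside given proper subspaces,
jointly surjective. -/
theorem exists_finset_cut [FiniteDimensional K V] [Infinite ι] (ev : ι → V →ₗ[K] K)
    (hev : ∀ v : V, v ≠ 0 → {i | ev i v = 0}.Finite)
    (H : Set (Submodule K V)) (hH : H.Finite) (hHtop : ∀ U ∈ H, U ≠ ⊤)
    (hV : 0 < Module.finrank K V) :
    ∃ S : Finset ι, S.card + 1 = Module.finrank K V ∧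
      Function.Surjective (LinearMap.pi fun i : S => ev i) ∧
        ∃ s : V, s ≠ 0 ∧ (∀ i ∈ S, ev i s = 0) ∧
          (∀ v, (∀ i ∈ S, ev i v = 0) → ∃ a : K, v = a • s) ∧ ∀ U ∈ H, s ∉ U := by
  classical
  obtain ⟨n, hn⟩ : ∃ n, Module.finrank K V = n + 1 := ⟨_, (Nat.sub_add_cancel hV).symm⟩
  have htop : ∀ U ∈ H, ¬⊤ ≤ U := fun U hU h => hHtop U hU (top_le_iff.mp h)
  have hdim : Module.finrank K (⊤ : Submodule K V) = n + 1 := by rw [finrank_top, hn]
  obtain ⟨S, hS, -, s, -, hs, -⟩ :=
    exists_pair_cut_aux ev hev H hH ev hev H hH n ⊤ ⊤ hdim hdim htop htop ∅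
  have hsurj := hs.surjective (by omega)
  obtain ⟨-, hs0, hsS, hmax, hsU⟩ := hs
  exact ⟨S, by omega, hsurj, s, hs0, hsS, fun v hv => hmax v Submodule.mem_top hv, hsU⟩

end Fermat.Agent.Pic.Field
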