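import Fermat.Agent.Pic.Field.Eval
import Fermat.Agent.Pic.Field.PairCut

/-!
# Cutting the sections of a large twist down to one section

For a datum over a field with two surjective twists there are rational points of the overlap,
one fewer than the sections, at which evaluation is surjective and whose only common zero
section is nonzero at all points outside the overlap.
-/

noncomputable section

open TensorProduct
open Fermat.Agent.Pic.Cech

namespace Fermat.Agent.Pic.Field

universe u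

variable {k : Type u} [Field k] {K : Type u} [Field K] [Algebra k K]

theorem finite_quotient_tmul {B : Type u} [CommRing B] [Algebra k B] (t : B)
    [Module.Finite k (B ⧸ Ideal.span ({t} : Set B))] :
    Module.Finite K ((K ⊗[k] B) ⧸ Ideal.span ({(1 : K) ⊗ₜ[k] t} : Set (K ⊗[k] B))) := by
  let I := Ideal.span ({t} : Set B)
  let J := Ideal.span ({(1 : K) ⊗ₜ[k] t} : Set (K ⊗[k] B))
  let π : K ⊗[k] B →ₗ[K] K ⊗[k] (B ⧸ I) := (Ideal.Quotient.mkₐ k I).toLinearMap.baseChange K
  have hker : LinearMap.ker π ≤ LinearMap.ker (Ideal.Quotient.mkₐ K J).toLinearMap := by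
    intro z hz
    have hex : Function.Exact ((LinearMap.mulLeft k t).baseChange K) π := by
      refine lTensor_exact K (fun b => ?_) Ideal.Quotient.mk_surjective
      rw [AlgHom.toLinearMap_apply, Ideal.Quotient.mkₐ_eq_mk, Ideal.Quotient.eq_zero_iff_mem,
        Ideal.mem_span_singleton']
      exact ⟨fun ⟨c, hc⟩ => ⟨c, by rw [LinearMap.mulLeft_apply, mul_comm, hc]⟩,
        fun ⟨c, hc⟩ => ⟨c, by rw [← hc, LinearMap.mulLeft_apply, mul_comm]⟩⟩
    obtain ⟨w, rfl⟩ := (hex z).mp hz
    have e : ∀ w, (LinearMap.mulLeft k t).baseChange K w = ((1 : K) ⊗ₜ[k] t) * w := fun w => by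
      induction w using TensorProduct.induction_on with
      | zero => simp
      | tmul a b => simp
      | add x y hx hy => rw [map_add, hx, hy, mul_add]
    rw [LinearMap.mem_ker, e, AlgHom.toLinearMap_apply, Ideal.Quotient.mkₐ_eq_mk,
      Ideal.Quotient.eq_zero_iff_mem]
    exact Ideal.mul_mem_right _ _ (Ideal.mem_span_singleton_self _)
  have hπ : Function.Surjective π := LinearMap.lTensor_surjective K Ideal.Quotient.mk_surjective
  refine Module.Finite.of_surjective ((LinearMap.ker π).liftQ _ hker ∘ₗ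
    (π.quotKerEquivOfSurjective hπ).symm.toLinearMap) ?_
  rw [LinearMap.coe_comp]
  refine Function.Surjective.comp ?_ (π.quotKerEquivOfSurjective hπ).symm.surjective
  intro q
  obtain ⟨z, rfl⟩ := Ideal.Quotient.mk_surjective q
  exact ⟨Submodule.Quotient.mk z, rfl⟩

/-- An element with finite quotient lies in finitely many maximal ideals. -/
theorem finite_maximal_containing {S : Type u} [CommRing S] [Algebra K S] (t : S)
    [Module.Finite K (S ⧸ Ideal.span ({t} : Set S))] :
    {M : Ideal S | M.IsMaximal ∧ t ∈ M}.Finite := by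
  set I := Ideal.span ({t} : Set S)
  have : IsArtinianRing (S ⧸ I) := IsArtinianRing.of_finite K _
  have hfin : {P : Ideal (S ⧸ I) | P.IsMaximal}.Finite :=
      IsArtinianRing.setOfPred_isMaximal_finite _
  refine (hfin.image (Ideal.comap (Ideal.Quotient.mk I))).subset fun M hM => ?_
  have hle : I ≤ M := (Ideal.span_singleton_le_iff_mem M).mpr hM.2
  have he : (M.map (Ideal.Quotient.mk I)).comap (Ideal.Quotient.mk I) = M := by
    rw [Ideal.comap_map_of_surjective _ Ideal.Quotient.mk_surjective, ← RingHom.ker_eq_comap_bot,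
      Ideal.mk_ker, sup_eq_left.mpr hle]
  refine ⟨_, ?_, he⟩
  rcases Ideal.map_eq_top_or_isMaximal_of_surjective (Ideal.Quotient.mk I)
    Ideal.Quotient.mk_surjective hM.1 with h | h
  · exact absurd (he.symm.trans (by rw [h, Ideal.comap_top])) hM.1.ne_top
  · exact h

variable {C : Cover k} (L : Datum C K)

/-- Sections vanishing at a maximal ideal of the first chart. -/
def vanish0 (M : Ideal (C.RB0 K)) : Submodule K L.toPre.H0 where
  carrier := {q | ∀ ψ : Module.Dual (C.RB0 K) L.N0, ψ q.1.1 ∈ M}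
  zero_mem' ψ := by simp
  add_mem' hp hq ψ := by
    show ψ (_ + _) ∈ M
    rw [map_add]; exact add_mem (hp ψ) (hq ψ)
  smul_mem' a q hq ψ := by
    show ψ (a • q.1.1) ∈ M
    rw [← algebraMap_smul (C.RB0 K) a q.1.1, map_smul, smul_eq_mul]
    exact Ideal.mul_mem_left _ _ (hq ψ)

/-- Sections vanishing at a maximal ideal of the second chart. -/
def vanish1 (M : Ideal (C.RB1 K)) : Submodule K L.toPre.H0 where
  carrier := {q | ∀ ψ : Module.Dual (C.RB1 K) L.N1, ψ q.1.2 ∈ M}
  zero_mem' ψ := by simp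
  add_mem' hp hq ψ := by
    show ψ (_ + _) ∈ M
    rw [map_add]; exact add_mem (hp ψ) (hq ψ)
  smul_mem' a q hq ψ := by
    show ψ (a • q.1.2) ∈ M
    rw [← algebraMap_smul (C.RB1 K) a q.1.2, map_smul, smul_eq_mul]
    exact Ideal.mul_mem_left _ _ (hq ψ)

/-- An invertible module has a functional value outside any proper ideal. -/
theorem exists_dual_notMem {S N : Type u} [CommRing S] [AddCommGroup N] [Module S N]
    [Module.Invertible S N] (M : Ideal S) (hM : M ≠ ⊤) :
    ∃ (x : N) (ψ : Module.Dual S N), ψ x ∉ M := by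
  by_contra! h
  refine hM (M.eq_top_iff_one.mpr ?_)
  obtain ⟨z, hz⟩ := (Module.Invertible.bijective (R := S) (M := N)).2 1
  rw [← hz]
  clear hz
  induction z using TensorProduct.induction_on with
  | zero => simp
  | tmul ψ x => simpa using h x ψ
  | add x y hx hy => rw [map_add]; exact add_mem hx hy

/-- After one more twist some section does not vanish at a given zero of the parameter. -/
theorem vanish0_ne_top {n : ℕ} (hn : Function.Surjective (L.toPre.twist n).diff)
    {M : Ideal (C.RB0 K)} (hM : M.IsMaximal) (hT : C.T0 K ∈ M) :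
    vanish0 (L.twist (n + 1)) M ≠ ⊤ := by
  obtain ⟨x, ψ, hψ⟩ := exists_dual_notMem (N := L.N0) M hM.ne_top
  obtain ⟨⟨x', y'⟩, h⟩ := hn (-(C.T' K • L.f0 x))
  change L.N0 at x'
  change L.N1 at y'
  rw [Pre.diff_apply, Pre.twist_f0, Pre.twist_f1] at h
  intro htop
  have hmem : (x + C.T0 K • x', y') ∈ (L.toPre.twist (n + 1)).H0 := by
    refine (Pre.mem_H0 _).mpr ?_
    show L.f0 (x + C.T0 K • x') = C.T K ^ (n + 1) • L.f1 y'
    have h2 : L.f0 x' - C.T K ^ n • L.f1 y' = -(C.T' K • L.f0 x) := h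
    have h' := congrArg (fun w : L.N01 => C.T K • w) h2
    simp only [smul_sub, smul_neg, smul_smul, C.T_mul_T', one_smul, ← pow_succ'] at h'
    rw [map_add, L.toPre.f0_smul_chart, C.ρ0_T0, add_comm]
    exact sub_eq_zero.mp (by rw [add_sub_right_comm, h', neg_add_cancel])
  have := (htop ▸ Submodule.mem_top : (⟨_, hmem⟩ : (L.twist (n + 1)).toPre.H0) ∈
    vanish0 (L.twist (n + 1)) M) ψ
  change ψ (x + C.T0 K • x') ∈ M at this
  rw [map_add, map_smul, smul_eq_mul] at this
  exact hψ ((Submodule.add_mem_iff_left M (Ideal.mul_mem_right _ _ hT)).mp this)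

theorem vanish1_ne_top {n : ℕ} (hn : Function.Surjective (L.toPre.twist n).diff)
    {M : Ideal (C.RB1 K)} (hM : M.IsMaximal) (hT : C.T1 K ∈ M) :
    vanish1 (L.twist (n + 1)) M ≠ ⊤ := by
  obtain ⟨y, ψ, hψ⟩ := exists_dual_notMem (N := L.N1) M hM.ne_top
  obtain ⟨⟨x', y'⟩, h⟩ := hn (C.T K ^ (n + 1) • L.f1 y)
  change L.N0 at x'
  change L.N1 at y'
  rw [Pre.diff_apply, Pre.twist_f0, Pre.twist_f1] at h
  intro htop
  have hmem : (x', C.T1 K • y' + y) ∈ (L.toPre.twist (n + 1)).H0 := by
    refine (Pre.mem_H0 _).mpr ?_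
    show L.f0 x' = C.T K ^ (n + 1) • L.f1 (C.T1 K • y' + y)
    rw [map_add, L.toPre.f1_smul_chart, C.ρ1_T1, smul_add, smul_smul,
      pow_succ, mul_assoc, C.T_mul_T', mul_one]
    rw [pow_succ] at h
    exact (sub_eq_iff_eq_add'.mp h)
  have := (htop ▸ Submodule.mem_top : (⟨_, hmem⟩ : (L.twist (n + 1)).toPre.H0) ∈
    vanish1 (L.twist (n + 1)) M) ψ
  change ψ (C.T1 K • y' + y) ∈ M at this
  rw [map_add, map_smul, smul_eq_mul] at this
  exact hψ ((Submodule.add_mem_iff_right M (Ideal.mul_mem_right _ _ hT)).mp this)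

/-- The value of a section at a rational point. -/
def sectionValue (χ : C.B01 →ₐ[k] k) : L.toPre.H0 →ₗ[K] K :=
  value L χ ∘ₗ L.toPre.g0 ∘ₗ LinearMap.fst K L.N0 L.N1 ∘ₗ L.toPre.H0.subtype

/-- A nonzero section vanishes at finitely many rational points. -/
theorem finite_sectionValue_zero
    (hz : ∀ b : C.B01, b ≠ 0 → {χ : C.B01 →ₐ[k] k | χ b = 0}.Finite) {q : L.toPre.H0}
    (hq : q ≠ 0) : {χ : C.B01 →ₐ[k] k | sectionValue L χ q = 0}.Finite := by
  exact finite_value_zero hz L (v := L.f0 q.1.1) (f0_ne_zero L hq)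

/-- The sections of a large twist cut down by rational points to one section. -/
theorem exists_cut [Infinite (C.B01 →ₐ[k] k)]
    (hz : ∀ b : C.B01, b ≠ 0 → {χ : C.B01 →ₐ[k] k | χ b = 0}.Finite)
    [Module.Finite k (C.B0 ⧸ Ideal.span ({C.t0} : Set C.B0))] {n : ℕ}
    (hn : Function.Surjective (L.toPre.twist n).diff)
    (hn' : Function.Surjective (L.toPre.twist (n + 1)).diff)
    (hpos : 0 < Module.finrank K (L.twist (n + 1)).toPre.H0) :
    ∃ S : Finset (C.B01 →ₐ[k] k), S.card + 1 = Module.finrank K (L.twist (n + 1)).toPre.H0 ∧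
      Function.Surjective (LinearMap.pi fun χ : S => sectionValue (L.twist (n + 1)) χ.1) ∧
      ∃ s : (L.twist (n + 1)).toPre.H0, s ≠ 0 ∧
        (∀ χ ∈ S, sectionValue (L.twist (n + 1)) χ s = 0) ∧
        (∀ v, (∀ χ ∈ S, sectionValue (L.twist (n + 1)) χ v = 0) → ∃ a : K, v = a • s) ∧
        (∀ M : Ideal (C.RB0 K), M.IsMaximal → C.T0 K ∈ M →
          s ∉ vanish0 (L.twist (n + 1)) M) ∧
        ∀ M : Ideal (C.RB1 K), M.IsMaximal → C.T1 K ∈ M →
          s ∉ vanish1 (L.twist (n + 1)) M := by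
  have := C.finite_zeros
  have := finite_quotient_tmul (k := k) (K := K) C.t0
  have := finite_quotient_tmul (k := k) (K := K) C.t1
  have : FiniteDimensional K (L.twist (n + 1)).toPre.H0 :=
    (L.twist (n + 1)).toPre.finite_H0 hn'
  obtain ⟨S, hcard, hsurj, s, hs0, hsS, hmax, hU⟩ := exists_finset_cut
    (sectionValue (L.twist (n + 1))) (fun q hq => finite_sectionValue_zero _ hz hq)
    (vanish0 (L.twist (n + 1)) '' {M | M.IsMaximal ∧ C.T0 K ∈ M} ∪
      vanish1 (L.twist (n + 1)) '' {M | M.IsMaximal ∧ C.T1 K ∈ M})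
    (((finite_maximal_containing (K := K) (C.T0 K)).image _).union
      ((finite_maximal_containing (K := K) (C.T1 K)).image _))
    (by
      rintro _ (⟨M, hM, rfl⟩ | ⟨M, hM, rfl⟩)
      · exact vanish0_ne_top L hn hM.1 hM.2
      · exact vanish1_ne_top L hn hM.1 hM.2) hpos
  exact ⟨S, hcard, hsurj, s, hs0, hsS, hmax,
    fun M hM hT => hU _ (Or.inl ⟨M, ⟨hM, hT⟩, rfl⟩),
    fun M hM hT => hU _ (Or.inr ⟨M, ⟨hM, hT⟩, rfl⟩)⟩

end Fermat.Agent.Pic.Field
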