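import Fermat.Agent.Pic.Cech.Cuts
import Fermat.Agent.Pic.Field.Cut

/-!
# The subsheaf of sections vanishing at rational points

If a datum maps isomorphically onto the sections of `L` vanishing at rational points at which
evaluation of sections is surjective and has a one dimensional kernel, then it has no `H¹`, one
section, and that section has no zero where the one of `L` has none.
-/

noncomputable section

open TensorProduct
open Fermat.Agent.Pic.Cech

namespace Fermat.Agent.Pic.Field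

universe u

/-- If at no maximal ideal containing `t` all functionals vanish at `x`, their values at `x` and
the multiples of `t` fill the ring. -/
theorem exists_eval_add_mul_eq {S M : Type*} [CommRing S] [AddCommGroup M] [Module S M] (x : M)
    (t : S) (h : ∀ I : Ideal S, I.IsMaximal → t ∈ I → ¬ ∀ ψ : Module.Dual S M, ψ x ∈ I) (b : S) :
    ∃ (ψ : Module.Dual S M) (a : S), ψ x + t * a = b := by
  let J : Ideal S := LinearMap.range (Module.Dual.eval S M x) ⊔ Ideal.span {t}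
  have hJ : J = ⊤ := by
    by_contra hne
    obtain ⟨I, hI, hle⟩ := Ideal.exists_le_maximal _ hne
    exact h I hI (hle (Submodule.mem_sup_right (Ideal.mem_span_singleton_self _))) fun ψ =>
      hle (Submodule.mem_sup_left ⟨ψ, rfl⟩)
  obtain ⟨_, ⟨ψ, rfl⟩, c, hc, hsum⟩ := Submodule.mem_sup.mp (hJ ▸ Submodule.mem_top : b ∈ J)
  obtain ⟨a, rfl⟩ := Ideal.mem_span_singleton'.mp hc
  exact ⟨ψ, a, by rw [mul_comm]; exact hsum⟩

variable {k : Type u} [Field k] {K : Type u} [Field K] [Algebra k K] {C : Cover k}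

/-- A map onto the subsheaf of the sections vanishing at rational points. -/
structure IsVanishingAt {M L : Datum C K} (φ : M.toPre.Hom L.toPre)
    (S : Finset (C.B01 →ₐ[k] k)) : Prop where
  inj0 : Function.Injective φ.φ0
  inj1 : Function.Injective φ.φ1
  inj01 : Function.Injective φ.φ01
  zero01 : ∀ w, ∀ χ ∈ S, value L χ (φ.φ01 w) = 0
  range0 : ∀ x, (∀ χ ∈ S, value L χ (L.f0 x) = 0) → x ∈ Set.range φ.φ0
  range1 : ∀ y, (∀ χ ∈ S, value L χ (L.f1 y) = 0) → y ∈ Set.range φ.φ1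

variable {M L : Datum C K} {φ : M.toPre.Hom L.toPre} {S : Finset (C.B01 →ₐ[k] k)}

theorem sectionValue_apply (χ : C.B01 →ₐ[k] k) (q : L.toPre.H0) :
    sectionValue L χ q = value L χ (L.f0 q.1.1) := rfl

/-- The vanishing subsheaf has no first cohomology. -/
theorem IsVanishingAt.diff_surjective (h : IsVanishingAt φ S)
    (hL : Function.Surjective L.toPre.diff)
    (hS : Function.Surjective (LinearMap.pi fun χ : S => sectionValue L χ.1)) :
    Function.Surjective M.toPre.diff := by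
  intro w
  obtain ⟨⟨x, y⟩, hxy⟩ := hL (φ.φ01 w)
  obtain ⟨q, hq⟩ := hS fun χ => value L χ.1 (L.f0 x)
  rw [Pre.diff_apply] at hxy
  have hx : ∀ χ ∈ S, value L χ (L.f0 (x - q.1.1)) = 0 := fun χ hχ => by
    have h1 : value L χ (L.f0 q.1.1) = value L χ (L.f0 x) := congrFun hq ⟨χ, hχ⟩
    rw [map_sub L.f0, map_sub, h1, sub_self]
  have hy : ∀ χ ∈ S, value L χ (L.f1 (y - q.1.2)) = 0 := fun χ hχ => by
    have h1 : value L χ (L.f0 x) - value L χ (L.f1 y) = 0 := by
      rw [← map_sub, hxy, h.zero01 w χ hχ]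
    have h2 := congrFun hq ⟨χ, hχ⟩
    change value L χ (L.f0 q.1.1) = value L χ (L.f0 x) at h2
    rw [map_sub L.f1, map_sub, ← L.toPre.mem_H0.mp q.2, h2, sub_eq_zero]
    exact (sub_eq_zero.mp h1).symm
  obtain ⟨x', hx'⟩ := h.range0 _ hx
  obtain ⟨y', hy'⟩ := h.range1 _ hy
  refine ⟨(x', y'), h.inj01 ?_⟩
  rw [← φ.diff_prod, Pre.diff_apply, Pre.Hom.prod_apply, hx', hy', map_sub L.f0, map_sub L.f1,
    L.toPre.mem_H0.mp q.2, sub_sub_sub_cancel_right]
  exact hxy

theorem IsVanishingAt.h0_injective (h : IsVanishingAt φ S) : Function.Injective φ.h0 :=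
  fun _ _ e => Subtype.ext (Prod.ext (h.inj0 (congrArg (fun v => v.1.1) e))
    (h.inj1 (congrArg (fun v => v.1.2) e)))

/-- A section vanishing at the points comes from the vanishing subsheaf. -/
theorem IsVanishingAt.exists_h0 (h : IsVanishingAt φ S) {q : L.toPre.H0}
    (hq : ∀ χ ∈ S, sectionValue L χ q = 0) : ∃ m : M.toPre.H0, φ.h0 m = q := by
  obtain ⟨x, hx⟩ := h.range0 q.1.1 hq
  obtain ⟨y, hy⟩ := h.range1 q.1.2 fun χ hχ => by
    rw [← L.toPre.mem_H0.mp q.2]; exact hq χ hχ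
  refine ⟨⟨(x, y), ?_⟩, Subtype.ext (Prod.ext hx hy)⟩
  rw [Pre.mem_H0]
  refine h.inj01 ?_
  rw [φ.comm0, φ.comm1, hx, hy]
  exact L.toPre.mem_H0.mp q.2

/-- The vanishing subsheaf has one section up to scalars, and it does not vanish where the one
cut out does not. -/
theorem IsVanishingAt.exists_section (h : IsVanishingAt φ S) {s : L.toPre.H0} (hs : s ≠ 0)
    (hsS : ∀ χ ∈ S, sectionValue L χ s = 0)
    (hmax : ∀ v, (∀ χ ∈ S, sectionValue L χ v = 0) → ∃ a : K, v = a • s)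
    (h0 : ∀ I : Ideal (C.RB0 K), I.IsMaximal → C.T0 K ∈ I → s ∉ vanish0 L I)
    (h1 : ∀ I : Ideal (C.RB1 K), I.IsMaximal → C.T1 K ∈ I → s ∉ vanish1 L I) :
    Module.finrank K M.toPre.H0 = 1 ∧ ∃ m : M.toPre.H0, m ≠ 0 ∧
      Function.Surjective (M.toPre.cut0 m.1.1) ∧ Function.Surjective (M.toPre.cut1 m.1.2) := by
  obtain ⟨m, rfl⟩ := h.exists_h0 hsS
  have hm : m ≠ 0 := fun e => hs (by rw [e, map_zero])
  refine ⟨finrank_eq_one_iff'.mpr ⟨m, hm, fun v => ?_⟩, m, hm, ?_, ?_⟩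
  · obtain ⟨a, ha⟩ := hmax (φ.h0 v) fun χ hχ => by
      rw [sectionValue_apply]
      show value L χ (L.f0 (φ.φ0 v.1.1)) = 0
      rw [← φ.comm0]
      exact h.zero01 _ χ hχ
    exact ⟨a, h.h0_injective (by rw [map_smul, ha])⟩
  · intro b
    obtain ⟨ψ, a, e⟩ := exists_eval_add_mul_eq m.1.1 (C.T0 K)
      (fun I hI ht hall => h0 I hI ht fun ψ => hall (ψ ∘ₗ φ.φ0)) b
    exact ⟨(ψ, a), e⟩
  · intro b
    obtain ⟨ψ, a, e⟩ := exists_eval_add_mul_eq m.1.2 (C.T1 K)
      (fun I hI ht hall => h1 I hI ht fun ψ => hall (ψ ∘ₗ φ.φ1)) b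
    exact ⟨(ψ, a), e⟩

end Fermat.Agent.Pic.Field
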