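import Fermat.Agent.Pic.Field.Eval
import Fermat.Agent.Pic.Hilb.Basic

/-!
# Finite sets of rational points as finite quotients

`pointsPt`: a finite set of distinct rational points is a quotient with a basis of
interpolating functions; over a field extension its ideal is the common zero set.
-/

noncomputable section

open TensorProduct

namespace Fermat.Agent.Pic.Field

universe u

variable {k : Type u} [Field k] {B : Type u} [CommRing B] [Algebra k B]

/-- Interpolation at distinct rational points. -/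
theorem exists_interpolation (S : Finset (B →ₐ[k] k)) :
    ∃ e : S → B, ∀ χ : S, χ.1 (e χ) = 1 ∧ ∀ ψ : S, ψ ≠ χ → ψ.1 (e χ) = 0 := by
  classical
  have hsep : ∀ χ ψ : S, ∃ b : B, ψ ≠ χ → χ.1 b = 1 ∧ ψ.1 b = 0 := fun χ ψ => by
    by_cases h : ψ = χ
    · exact ⟨0, fun h' => absurd h h'⟩
    obtain ⟨b, hb⟩ : ∃ b, χ.1 b ≠ ψ.1 b := by
      by_contra! hall
      exact h (Subtype.ext (AlgHom.ext hall)).symm
    refine ⟨(χ.1 b - ψ.1 b)⁻¹ • (b - algebraMap k B (ψ.1 b)), fun _ => ⟨?_, ?_⟩⟩
    · simp [sub_ne_zero.mpr hb]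
    · simp
  choose b hb using hsep
  refine ⟨fun χ => ∏ ψ ∈ Finset.univ.erase χ, b χ ψ, fun χ => ⟨?_, fun ψ hψ => ?_⟩⟩
  · rw [map_prod]
    exact Finset.prod_eq_one fun ψ hψ => (hb χ ψ (Finset.ne_of_mem_erase hψ)).1
  · rw [map_prod]
    exact Finset.prod_eq_zero (Finset.mem_erase.mpr ⟨hψ, Finset.mem_univ _⟩) (hb χ ψ hψ).2

variable (S : Finset (B →ₐ[k] k))

/-- The interpolating functions. -/
def pointsBasis : S → B := (exists_interpolation S).choose

/-- The values at the points. -/
def pointsPt [DecidableEq ↥S] : Hilb.Pt k (pointsBasis S) k where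
  π := LinearMap.pi fun χ : S => χ.1.toLinearMap
  norm χ := funext fun ψ => by
    show ψ.1 (pointsBasis S χ) = _
    rcases eq_or_ne ψ χ with rfl | h
    · rw [Pi.single_eq_same]
      exact ((exists_interpolation S).choose_spec ψ).1
    · rw [Pi.single_eq_of_ne h]
      exact ((exists_interpolation S).choose_spec χ).2 ψ h
  mul b c := funext fun ψ => by
    simp only [Finset.sum_apply, Pi.smul_apply, LinearMap.pi_apply, AlgHom.toLinearMap_apply,
      smul_eq_mul, map_mul]
    rw [Finset.sum_eq_single ψ (fun χ _ hne => by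
      rw [show ψ.1 (pointsBasis S χ) = 0 from
        ((exists_interpolation S).choose_spec χ).2 ψ hne.symm, mul_zero, mul_zero])
      (fun h => absurd (Finset.mem_univ ψ) h),
      show ψ.1 (pointsBasis S ψ) = 1 from ((exists_interpolation S).choose_spec ψ).1, mul_one,
      mul_comm]

variable (K : Type u) [Field K] [Algebra k K]

theorem πR_pointsPt [DecidableEq ↥S] (t : K ⊗[k] B) (χ : S) :
    ((pointsPt S).map (Algebra.ofId k K)).πR t χ = evalAlg K χ.1 t := by
  induction t using TensorProduct.induction_on with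
  | zero => simp
  | tmul a b =>
    rw [Hilb.Pt.πR_tmul, evalAlg_tmul, Pi.smul_apply, smul_eq_mul, Hilb.Pt.map_π,
      Algebra.ofId_apply]
    rfl
  | add x y hx hy => rw [map_add, map_add, Pi.add_apply, hx, hy]

/-- The ideal over a field extension is the common zero set. -/
theorem mem_ideal_pointsPt [DecidableEq ↥S] (t : K ⊗[k] B) :
    t ∈ ((pointsPt S).map (Algebra.ofId k K)).ideal ↔ ∀ χ ∈ S, evalAlg K χ t = 0 := by
  rw [Hilb.Pt.mem_ideal, funext_iff]
  simp only [πR_pointsPt, Pi.zero_apply, Subtype.forall]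

end Fermat.Agent.Pic.Field
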