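import Fermat.Agent.Pic.Cech.Divisor
import Fermat.Agent.Pic.Cech.Tensor
import Fermat.Agent.Pic.Field.Descend
import Fermat.Agent.Pic.Field.PointsPt

/-!
# A twist times the ideal of rational points is the subsheaf of sections vanishing there

`exists_isVanishingAt`: multiplication maps `L ⊗ I_S(n)` isomorphically onto the sections of
`L(n)` vanishing at `S`.
-/

noncomputable section

open TensorProduct
open Fermat.Agent.Pic.Cech

namespace Fermat.Agent.Pic.Field

universe u

variable {k : Type u} [Field k] [IsAlgClosed k] {C : Cover k} [C.SmoothCharts]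
  (K : Type u) [Field K] [Algebra k K]

open scoped Classical in
/-- The twisted ideal of rational points, over the ground field. -/
def pointsDatum (S : Finset (C.B01 →ₐ[k] k)) (n : ℕ) : Datum C k :=
  (idealDatum (pointsPt S)).twist n

open scoped Classical in
/-- The twisted ideal of rational points over an extension. -/
def pointsDatumOver (S : Finset (C.B01 →ₐ[k] k)) (n : ℕ) : Datum C K :=
  (idealDatum ((pointsPt S).map (IsScalarTower.toAlgHom k k K))).twist n

open scoped Classical in
/-- The twisted ideal over an extension is the base change of the one over the ground field. -/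
def pointsBaseChange (S : Finset (C.B01 →ₐ[k] k)) (n : ℕ) :
    BaseChange (pointsDatum S n).toPre (pointsDatumOver K S n).toPre :=
  (idealBaseChange (R' := K) (pointsPt S)).twist n

section Mul

variable {S : Type u} [CommRing S] {N : Type u} [AddCommGroup N] [Module S N]

/-- Multiplication of a module by an ideal. -/
def mulIdeal (I : Ideal S) : N ⊗[S] I →ₗ[S] N :=
  (TensorProduct.rid S N).toLinearMap ∘ₗ (Submodule.subtype I).lTensor N

@[simp] theorem mulIdeal_tmul (I : Ideal S) (x : N) (b : I) : mulIdeal I (x ⊗ₜ b) =
    (b : S) • x := by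
  simp [mulIdeal]

theorem mulIdeal_injective (I : Ideal S) [Module.Flat S N] :
    Function.Injective (mulIdeal (N := N) I) :=
  (TensorProduct.rid S N).injective.comp
    (Module.Flat.lTensor_preserves_injective_linearMap _ Subtype.val_injective)

theorem mem_range_mulIdeal (I : Ideal S) [Module.Invertible S N] {x : N}
    (hx : ∀ ψ : Module.Dual S N, ψ x ∈ I) : x ∈ Set.range (mulIdeal I) := by
  obtain ⟨t, ht⟩ := ((Module.Invertible.linearEquiv S N).symm 1).exists_finset
  have h1 : (1 : S) = ∑ i ∈ t, i.1 i.2 := by
    simpa [LinearEquiv.symm_apply_eq, Module.Invertible.linearEquiv] using ht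
  refine ⟨∑ i ∈ t, i.2 ⊗ₜ ⟨i.1 x, hx i.1⟩, ?_⟩
  rw [map_sum]
  simp only [mulIdeal_tmul]
  conv_rhs => rw [← one_smul S x, h1, Finset.sum_smul]
  exact Finset.sum_congr rfl fun i _ => (invertible_smul_comm i.1 i.2 x).symm

end Mul

open scoped Classical in
/-- Multiplication identifies `L ⊗ I_S(n)` with the sections of `L(n)` vanishing at `S`. -/
theorem exists_isVanishingAt (L : Datum C K) (S : Finset (C.B01 →ₐ[k] k)) (n : ℕ) :
    ∃ φ : (L.tensor (pointsDatumOver K S n)).toPre.Hom (L.twist n).toPre, IsVanishingAt φ S := by
  let x := (pointsPt S).map (IsScalarTower.toAlgHom k k K)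
  have hx : x = (pointsPt S).map (Algebra.ofId k K) :=
    congrArg (fun f => (pointsPt S).map f) (AlgHom.ext fun _ => rfl)
  have hmem : ∀ t, t ∈ x.ideal ↔ ∀ χ ∈ S, evalAlg K χ t = 0 := fun t => by
    rw [hx, mem_ideal_pointsPt]
  let φ : (L.tensor (pointsDatumOver K S n)).toPre.Hom (L.twist n).toPre :=
    { φ0 := mulIdeal (N := L.N0) (pt0 x).ideal
      φ1 := mulIdeal (N := L.N1) (pt1 x).ideal
      φ01 := mulIdeal (N := L.N01) x.ideal
      comm0 := fun w => by
        change L.N0 ⊗[C.RB0 K] (pt0 x).ideal at w
        induction w using TensorProduct.induction_on with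
        | zero =>
          exact (((congrArg _ (map_zero _)).trans (map_zero _)).trans
            (map_zero (L.twist n).f0).symm).trans (congrArg _ (map_zero _).symm)
        | tmul a b =>
          show mulIdeal x.ideal (L.f0 a ⊗ₜ[C.RB01 K] (idealPre x).f0 b) =
            L.f0 (mulIdeal _ (a ⊗ₜ[C.RB0 K] b))
          exact (mulIdeal_tmul _ _ _).trans
            ((L.toPre.f0_smul_chart b.1 a).symm.trans (congrArg L.f0 (mulIdeal_tmul _ a b)).symm)
        | add u v hu hv =>
          exact ((congrArg _ (map_add _ u v)).trans (map_add _ _ _)).trans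
            ((congr_arg₂ (· + ·) hu hv).trans
              ((map_add (L.twist n).f0 _ _).symm.trans (congrArg _ (map_add _ u v).symm)))
      comm1 := fun w => by
        change L.N1 ⊗[C.RB1 K] (pt1 x).ideal at w
        induction w using TensorProduct.induction_on with
        | zero =>
          exact (((congrArg _ (map_zero _)).trans (map_zero _)).trans
            (map_zero (L.twist n).f1).symm).trans (congrArg _ (map_zero _).symm)
        | tmul a b =>
          show mulIdeal x.ideal (L.f1 a ⊗ₜ[C.RB01 K] (C.T K ^ n • (idealPre x).f1 b)) =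
            C.T K ^ n • L.f1 (mulIdeal _ (a ⊗ₜ[C.RB1 K] b))
          refine (mulIdeal_tmul x.ideal _ _).trans ?_
          show (C.T K ^ n * C.ρ1 K b.1) • L.f1 a = _
          rw [mul_smul]
          exact congrArg _ ((L.toPre.f1_smul_chart b.1 a).symm.trans
            (congrArg L.f1 (mulIdeal_tmul _ a b)).symm)
        | add u v hu hv =>
          exact ((congrArg _ (map_add _ u v)).trans (map_add _ _ _)).trans
            ((congr_arg₂ (· + ·) hu hv).trans
              ((map_add (L.twist n).f1 _ _).symm.trans (congrArg _ (map_add _ u v).symm))) }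
  refine ⟨φ, mulIdeal_injective (N := L.N0) _, mulIdeal_injective (N := L.N1) _,
    mulIdeal_injective (N := L.N01) _, fun w χ hχ => ?_, fun y hy => ?_, fun y hy => ?_⟩
  · change L.N01 ⊗[C.RB01 K] x.ideal at w
    show value (L.twist n) χ (mulIdeal x.ideal w) = 0
    induction w using TensorProduct.induction_on with
    | zero => exact (congrArg _ (map_zero _)).trans (map_zero _)
    | tmul a b =>
      refine (congrArg _ (mulIdeal_tmul _ a b)).trans ?_
      show evalAlg K χ ((exists_valueFunctional (L.twist n) χ).choose ((b : C.RB01 K) • a)) = 0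
      exact (congrArg (evalAlg K χ)
        ((exists_valueFunctional (L.twist n) χ).choose.map_smul b.1 a)).trans
        ((map_mul (evalAlg K χ) _ _).trans
          ((congrArg (· * _) ((hmem b.1).mp b.2 χ hχ)).trans (zero_mul _)))
    | add u v hu hv =>
      exact (congrArg _ (map_add _ u v)).trans ((map_add _ _ _).trans
        ((congr_arg₂ (· + ·) hu hv).trans (add_zero 0)))
  · refine mem_range_mulIdeal (N := L.N0) (pt0 x).ideal fun ψ => ?_
    rw [ideal_pt0, Ideal.mem_comap, hmem]
    intro χ hχ
    have h := eval_eq_zero_of_value (L.twist n) χ ((L.twist n).toPre.dualF0 ψ) (hy χ hχ)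
    rwa [Pre.dualF0_apply] at h
  · refine mem_range_mulIdeal (N := L.N1) (pt1 x).ideal fun ψ => ?_
    rw [ideal_pt1, Ideal.mem_comap, hmem]
    intro χ hχ
    have h := eval_eq_zero_of_value (L.twist n) χ ((L.twist n).toPre.dualF1 ψ) (hy χ hχ)
    rwa [Pre.dualF1_apply] at h

end Fermat.Agent.Pic.Field
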