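import Fermat.Agent.Pic.Field.Cut
import Fermat.Agent.Pic.Field.Family
import Fermat.Agent.Pic.Field.Tensor

/-!
# Every datum over a field, corrected by rational points, is in some chart

`exists_index`: tensored with a suitable twisted ideal of rational points a datum has no `H¹` and
a section cutting out a family of the size of the genus.
-/

noncomputable section

open TensorProduct

namespace Fermat.Agent.Pic.Cech

universe u

variable {k : Type u} [Field k]

/-- The overlap has many rational points, and the parameter has zeros on the first chart, finitely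
many. -/
class Cover.HasPoints (C : Cover k) : Prop where
  infinite_points : Infinite (C.B01 →ₐ[k] k)
  finite_zero_points : ∀ b : C.B01, b ≠ 0 → {χ : C.B01 →ₐ[k] k | χ b = 0}.Finite
  finite_zeros0 : Module.Finite k (C.B0 ⧸ Ideal.span ({C.t0} : Set C.B0))
  not_isUnit_t0 : ¬ IsUnit C.t0

variable {C : Cover k} [C.HasPoints]

theorem Cover.exists_maximal_T0 (C : Cover k) [C.HasPoints] (K : Type u) [Field K] [Algebra k K] :
    ∃ M : Ideal (C.RB0 K), M.IsMaximal ∧ C.T0 K ∈ M := by
  suffices ¬ IsUnit (C.T0 K) by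
    obtain ⟨M, hM, hle⟩ := exists_max_ideal_of_mem_nonunits (show C.T0 K ∈ nonunits _ from this)
    exact ⟨M, hM, hle⟩
  intro hu
  let I := Ideal.span ({C.t0} : Set C.B0)
  have : Nontrivial (C.B0 ⧸ I) := Ideal.Quotient.nontrivial_iff.mpr fun h =>
    Cover.HasPoints.not_isUnit_t0 (C := C) (Ideal.span_singleton_eq_top.mp h)
  let π : C.RB0 K →ₐ[K] K ⊗[k] (C.B0 ⧸ I) :=
    Algebra.TensorProduct.map (AlgHom.id K K) (Ideal.Quotient.mkₐ k I)
  have h0 : π (C.T0 K) = 0 := by
    show (1 : K) ⊗ₜ[k] Ideal.Quotient.mk I C.t0 = 0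
    rw [Ideal.Quotient.eq_zero_iff_mem.mpr (Ideal.mem_span_singleton_self _), tmul_zero]
  have : Nontrivial (K ⊗[k] (C.B0 ⧸ I)) :=
    Algebra.TensorProduct.nontrivial_of_algebraMap_injective_of_flat_left k K (C.B0 ⧸ I)
      (RingHom.injective _)
  exact not_isUnit_zero (h0 ▸ hu.map π)

end Fermat.Agent.Pic.Cech

namespace Fermat.Agent.Pic.Field

open Fermat.Agent.Pic.Cech

universe u

variable {k : Type u} [Field k] [IsAlgClosed k] {C : Cover k} [C.SmoothCharts] [C.HasPoints]
  {K : Type u} [Field K] [Algebra k K]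

omit [IsAlgClosed k] [C.SmoothCharts] in
/-- The sections of a twist following one without `H¹` do not all vanish. -/
theorem finrank_H0_twist_pos (L : Datum C K) {n : ℕ}
    (hn : Function.Surjective (L.toPre.twist n).diff)
    [FiniteDimensional K (L.twist (n + 1)).toPre.H0] :
    0 < Module.finrank K (L.twist (n + 1)).toPre.H0 := by
  by_contra! h0
  obtain ⟨M, hM, hT⟩ := C.exists_maximal_T0 K
  refine vanish0_ne_top L hn hM hT (eq_top_iff.mpr fun q _ => ?_)
  have := Module.finrank_zero_iff.mp (Nat.le_zero.mp h0)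
  rw [Subsingleton.elim q 0]
  exact zero_mem _

omit [C.HasPoints] in
/-- When rational points cut the sections of a twist down to one without zeros on the zeros of the
parameters, the twisted ideal of the points gives a datum without `H¹` with a section cutting out
a family of the size of the genus. -/
theorem exists_family_of_cut (L : Datum C K) {n : ℕ}
    (hn' : Function.Surjective (L.toPre.twist (n + 1)).diff) {S : Finset (C.B01 →ₐ[k] k)}
    (hsurj : Function.Surjective (LinearMap.pi fun χ : S => sectionValue (L.twist (n + 1)) χ.1))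
    {s : (L.twist (n + 1)).toPre.H0} (hs : s ≠ 0)
    (hsS : ∀ χ ∈ S, sectionValue (L.twist (n + 1)) χ s = 0)
    (hmax : ∀ v, (∀ χ ∈ S, sectionValue (L.twist (n + 1)) χ v = 0) → ∃ a : K, v = a • s)
    (h0 : ∀ M : Ideal (C.RB0 K), M.IsMaximal → C.T0 K ∈ M → s ∉ vanish0 (L.twist (n + 1)) M)
    (h1 : ∀ M : Ideal (C.RB1 K), M.IsMaximal → C.T1 K ∈ M → s ∉ vanish1 (L.twist (n + 1)) M) :
    Function.Surjective (L.tensor (pointsDatumOver K S (n + 1))).toPre.diff ∧
      ∃ e : ULift.{u} (Fin C.genus) → C.B01,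
        ∃ v, (L.tensor (pointsDatumOver K S (n + 1))).toPre.Cuts e v := by
  obtain ⟨φ, hφ⟩ := exists_isVanishingAt K L S (n + 1)
  have hd := hφ.diff_surjective hn' hsurj
  obtain ⟨hrank, v, hv, hc0, hc1⟩ := hφ.exists_section hs hsS hmax h0 h1
  have := C.isDomain_RB01 K
  obtain ⟨m, e, he⟩ := exists_cuts _ v hv hc0 hc1
  obtain rfl : m = C.genus := by
    have h := Datum.chi_of_cuts _ e v he
    have : Subsingleton (L.tensor (pointsDatumOver K S (n + 1))).toPre.H1 :=
      (Pre.subsingleton_H1_iff _).mpr hd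
    rw [Pre.chi, hrank, Module.finrank_zero_of_subsingleton, chi_unit] at h
    simp only [Fintype.card_ulift, Fintype.card_fin] at h
    push_cast at h
    omega
  exact ⟨hd, e, v, he⟩

/-- Every datum, tensored with a suitable twisted ideal of rational points, lies in some chart. -/
theorem exists_index (L : Datum C K) :
    ∃ (S : Finset (C.B01 →ₐ[k] k)) (n : ℕ) (e : ULift.{u} (Fin C.genus) → C.B01),
      let M := L.tensor (pointsDatumOver K S n)
      Function.Surjective M.toPre.diff ∧ ∃ s : M.toPre.H0, M.toPre.Cuts e s := by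
  obtain ⟨m₀, hm₀⟩ := L.toPre.exists_twist_surjective
  have hn := hm₀ m₀ le_rfl
  have hn' := hm₀ (m₀ + 1) (Nat.le_succ _)
  have := (Cover.HasPoints.infinite_points : Infinite (C.B01 →ₐ[k] k))
  have := Cover.HasPoints.finite_zeros0 (C := C)
  have : Module.Finite (C.RB0 K) (L.twist (m₀ + 1)).toPre.N0 :=
    inferInstanceAs (Module.Finite (C.RB0 K) (L.twist (m₀ + 1)).N0)
  have : FiniteDimensional K (L.twist (m₀ + 1)).toPre.H0 := Pre.finite_H0 _ hn'
  obtain ⟨S, -, hS, s, hs, hsS, hmax, h0, h1⟩ :=
    exists_cut L Cover.HasPoints.finite_zero_points hn hn' (finrank_H0_twist_pos L hn)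
  obtain ⟨hd, e, v, he⟩ := exists_family_of_cut L hn' hS hs hsS hmax h0 h1
  exact ⟨S, m₀ + 1, e, hd, v, he⟩

end Fermat.Agent.Pic.Field
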