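import Fermat.Agent.Pic.Curve.Cover
import Fermat.Agent.Pic.Field.Cut

/-!
# Rational points of the overlap of the cover of a curve

Evaluation at the places outside the poles gives infinitely many rational points of the overlap,
and a nonzero function vanishes at only finitely many of them.
-/

noncomputable section

universe u

open CategoryTheory AlgebraicGeometry AlgebraicCurve

namespace Fermat.Agent.Pic

section Eval

variable {K F : Type*} [Field K] [Field F] [Algebra K F] [IsAlgClosed K] [FF.IsFunctionField K F]

/-- The value at a place outside the poles. -/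
def evalPlace {S : Finset (Place K F)} (v : Place K F) (hv : v ∉ S) :
    regularOff (K := K) S →ₐ[K] K :=
  (AlgEquiv.ofBijective (Algebra.ofId K v.ResidueField)
    (FF.algebraMap_residueField_bijective v)).symm.toAlgHom.comp
    ((IsScalarTower.toAlgHom K v.toValuationSubring v.ResidueField).comp
      { toFun := fun f => ⟨(f : F), f.2 v hv⟩
        map_one' := rfl
        map_mul' := fun _ _ => rfl
        map_zero' := rfl
        map_add' := fun _ _ => rfl
        commutes' := fun _ => rfl })

theorem evalPlace_eq_zero_iff {S : Finset (Place K F)} (v : Place K F) (hv : v ∉ S)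
    (f : regularOff (K := K) S) :
    evalPlace v hv f = 0 ↔ (f : F) = 0 ∨ 0 < v.ord (f : F) := by
  rw [evalPlace, AlgHom.comp_apply, AlgHom.comp_apply]
  show (AlgEquiv.ofBijective (Algebra.ofId K v.ResidueField)
    (FF.algebraMap_residueField_bijective v)).symm (IsLocalRing.residue _ ⟨(f : F),
      f.2 v hv⟩) = 0 ↔ _
  rw [EmbeddingLike.map_eq_zero_iff, IsLocalRing.residue_eq_zero_iff, IsLocalRing.mem_maximalIdeal,
    mem_nonunits_iff, ← v.adicValuation_coe_eq_one_iff]
  by_cases h0 : (f : F) = 0
  · simp [h0]
  have h1 := (FF.mem_iff_ord_nonneg v).mp (f.2 v hv)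
  simp only [h0, false_or, v.adicValuation_eq_exp_neg_ord h0, ← WithZero.exp_zero, WithZero.exp_inj]
  omega

theorem evalPlace_injective {S : Finset (Place K F)} (hS : S.Nonempty) {v w : Place K F}
    (hv : v ∉ S) (hw : w ∉ S) (h : evalPlace v hv = evalPlace w hw) : v = w := by
  by_contra hne
  obtain ⟨f, hf0, hfS, hfv, -, hfw⟩ := exists_regularOff_exact hS {v}
    (Finset.disjoint_singleton_right.mpr hv) (P := w) (by simpa using Ne.symm hne)
  have h1 : evalPlace v hv ⟨f, hfS⟩ = 0 :=
    (evalPlace_eq_zero_iff v hv _).mpr (Or.inr (hfv v (Finset.mem_singleton_self v)))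
  rw [h, evalPlace_eq_zero_iff] at h1
  rcases h1 with h1 | h1
  · exact hf0 h1
  · exact h1.ne' (hfw hw)

end Eval

variable {k : Type u} [Field k] [IsAlgClosed k] {C : Scheme.{u}} [IsIntegral C]
  {c : C ⟶ Spec (CommRingCat.of k)} [IsProper c] [SmoothOfRelativeDimension 1 c]

namespace Parameter

variable (p : Parameter c)

theorem finite_zeros0 :
    Module.Finite k (p.cover.B0 ⧸ Ideal.span ({p.cover.t0} : Set p.cover.B0)) :=
  finite_quotient_span c (Finset.singleton_nonempty p.e) _
    fun h => p.t_ne (congrArg Subtype.val h)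

theorem infinite_points : Infinite (p.cover.B01 →ₐ[k] k) := by
  classical
  have hinf : Set.Infinite {v : Place k (CurveField c) | v ∉ p.both} := fun hfin => by
    obtain ⟨v, hv⟩ := exists_place_notMem c (hfin.toFinset ∪ p.both)
    simp only [Finset.mem_union, Set.Finite.mem_toFinset, Set.mem_ofPred_eq, not_or, not_not] at hv
    exact hv.2 hv.1
  have := hinf.to_subtype
  exact Infinite.of_injective
    (fun v : {v : Place k (CurveField c) | v ∉ p.both} => evalPlace v.1 v.2)
    fun v w h => Subtype.ext
      (evalPlace_injective ⟨p.e, p.mem_both.mpr (Or.inl rfl)⟩ v.2 w.2 h)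

theorem finite_zero_points {b : p.cover.B01} (hb : b ≠ 0) :
    {χ : p.cover.B01 →ₐ[k] k | χ b = 0}.Finite := by
  have : Module.Finite k (p.cover.B01 ⧸ Ideal.span ({b} : Set p.cover.B01)) :=
    finite_quotient_span c (S := p.both) ⟨p.e, p.mem_both.mpr (Or.inl rfl)⟩ b hb
  refine Set.Finite.of_finite_image (f := fun χ : p.cover.B01 →ₐ[k] k => RingHom.ker χ) ?_ ?_
  · refine (Field.finite_maximal_containing (K := k) b).subset ?_
    rintro _ ⟨χ, hχ, rfl⟩
    exact ⟨RingHom.ker_isMaximal_of_surjective χ fun a => ⟨algebraMap k _ a, χ.commutes a⟩, hχ⟩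
  · intro χ _ χ' _ h
    refine AlgHom.ext fun x => ?_
    have h1 : x - algebraMap k _ (χ x) ∈ RingHom.ker χ := by simp
    rw [show RingHom.ker χ = RingHom.ker χ' from h, RingHom.mem_ker, map_sub, χ'.commutes,
      Algebra.algebraMap_self, RingHom.id_apply, sub_eq_zero] at h1
    exact h1.symm

end Parameter

end Fermat.Agent.Pic
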