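import Mathlib

/-!
# Cutting a space of sections down to a line by evaluations

`exists_bad_finset`: when each nonzero vector is killed by only finitely many functionals, all but
finitely many cut a subspace down to a hyperplane avoiding given subspaces.
-/

noncomputable section

namespace Fermat.Agent.Pic.Field

variable {K V : Type*} [Field K] [AddCommGroup V] [Module K V] {ι : Type*}

theorem finrank_inf_ker [FiniteDimensional K V] (W : Submodule K V) (f : V →ₗ[K] K) {w : V}
    (hw : w ∈ W) (hfw : f w ≠ 0) :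
    Module.finrank K ↥(W ⊓ LinearMap.ker f) + 1 = Module.finrank K W := by
  have h := (f.domRestrict W).finrank_range_add_finrank_ker
  have hr : LinearMap.range (f.domRestrict W) = ⊤ := by
    refine LinearMap.range_eq_top.mpr fun a => ⟨(a / f w) • ⟨w, hw⟩, ?_⟩
    simp [hfw]
  have hk : Module.finrank K (LinearMap.ker (f.domRestrict W)) =
      Module.finrank K ↥(W ⊓ LinearMap.ker f) := by
    refine LinearEquiv.finrank_eq
      { toFun := fun x => (⟨x.1.1, Submodule.mem_inf.mpr ⟨x.1.2, x.2⟩⟩ : ↥(W ⊓ LinearMap.ker f))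
        invFun := fun x => ⟨⟨x.1, x.2.1⟩, x.2.2⟩
        map_add' := fun _ _ => rfl
        map_smul' := fun _ _ => rfl
        left_inv := fun _ => rfl
        right_inv := fun _ => rfl }
  rw [hr, finrank_top, Module.finrank_self, hk] at h
  omega

/-- Outside a finite set of functionals the kernel of one is a hyperplane avoiding the given
subspaces. -/
theorem exists_bad_finset [FiniteDimensional K V] (ev : ι → V →ₗ[K] K)
    (hev : ∀ v : V, v ≠ 0 → {i | ev i v = 0}.Finite)
    (H : Set (Submodule K V)) (hH : H.Finite) (n : ℕ) (W : Submodule K V)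
    (hW : Module.finrank K W = n + 1 + 1) (hWU : ∀ U ∈ H, ¬W ≤ U) :
    ∃ bad : Finset ι, ∀ i ∉ bad, Module.finrank K ↥(W ⊓ LinearMap.ker (ev i)) = n + 1 ∧
      ∀ U ∈ H, ¬W ⊓ LinearMap.ker (ev i) ≤ U := by
  have hW0 : W ≠ ⊥ := fun h => by rw [h, finrank_bot] at hW; omega
  obtain ⟨v₀, hv₀, hv₀0⟩ := Submodule.exists_mem_ne_zero_of_ne_bot hW0
  classical
  let w : Submodule K V → V := fun U =>
    if h : ∃ w ∈ W ⊓ U, w ≠ 0 then h.choose else v₀
  have hw : ∀ U, w U ≠ 0 := fun U => by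
    simp only [w]
    split_ifs with h
    · exact h.choose_spec.2
    · exact hv₀0
  have hbad : ({i | ev i v₀ = 0} ∪ ⋃ U ∈ H, {i | ev i (w U) = 0}).Finite :=
    (hev v₀ hv₀0).union (hH.biUnion fun U _ => hev _ (hw U))
  refine ⟨hbad.toFinset, fun i hi => ?_⟩
  simp only [Set.Finite.mem_toFinset, Set.mem_union, Set.mem_iUnion, not_or, not_exists,
    Set.mem_ofPred_eq] at hi
  obtain ⟨hiv, hiw⟩ := hi
  have hrank := finrank_inf_ker W (ev i) hv₀ hiv
  have hrank' : Module.finrank K ↥(W ⊓ LinearMap.ker (ev i)) = n + 1 := by omega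
  have hnot : ∀ U ∈ H, ¬W ⊓ LinearMap.ker (ev i) ≤ U := by
    intro U hU hle
    obtain ⟨v, hv, hvU⟩ := SetLike.not_le_iff_exists.mp (hWU U hU)
    have hlt : W ⊓ U < W := lt_of_le_of_ne inf_le_left fun e => hvU (e.ge hv).2
    have h1 := Submodule.finrank_lt_finrank_of_lt hlt
    have heq : W ⊓ LinearMap.ker (ev i) = W ⊓ U :=
      Submodule.eq_of_le_of_finrank_le (le_inf inf_le_left hle) (by omega)
    have hex : ∃ w ∈ W ⊓ U, w ≠ 0 := by
      refine Submodule.exists_mem_ne_zero_of_ne_bot fun h => ?_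
      rw [heq, h, finrank_bot] at hrank'
      omega
    have hwmem : w U ∈ W ⊓ U := by
      simp only [w, dif_pos hex]
      exact hex.choose_spec.1
    rw [← heq] at hwmem
    exact hiw U hU hwmem.2
  exact ⟨hrank', hnot⟩

/-- `s` spans the common kernel on `W` of the functionals in `S` and avoids the subspaces in
`H`. -/
def IsCutBy (ev : ι → V →ₗ[K] K) (H : Set (Submodule K V)) (W : Submodule K V)
    (S : Finset ι) (s : V) : Prop :=
  s ∈ W ∧ s ≠ 0 ∧ (∀ i ∈ S, ev i s = 0) ∧
    (∀ v ∈ W, (∀ i ∈ S, ev i v = 0) → ∃ a : K, v = a • s) ∧ ∀ U ∈ H, s ∉ U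

theorem isCutBy_empty [FiniteDimensional K V] (ev : ι → V →ₗ[K] K) {H : Set (Submodule K V)}
    {W : Submodule K V} (hW : Module.finrank K W = 1) (hWU : ∀ U ∈ H, ¬W ≤ U) :
    ∃ s, IsCutBy ev H W ∅ s := by
  obtain ⟨⟨s, hsW⟩, hs0, hsp⟩ := finrank_eq_one_iff'.mp hW
  refine ⟨s, hsW, fun h => hs0 (Subtype.ext h), by simp, fun v hv _ => ?_, fun U hU hsU => ?_⟩
  · obtain ⟨a, ha⟩ := hsp ⟨v, hv⟩
    exact ⟨a, (congrArg Subtype.val ha).symm⟩
  · refine hWU U hU fun v hv => ?_
    obtain ⟨a, ha⟩ := hsp ⟨v, hv⟩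
    have hv' : v = a • s := (congrArg Subtype.val ha).symm
    exact hv' ▸ U.smul_mem a hsU

theorem IsCutBy.insert [DecidableEq ι] {ev : ι → V →ₗ[K] K} {H : Set (Submodule K V)}
    {W : Submodule K V} {i : ι} {S : Finset ι} {s : V}
    (h : IsCutBy ev H (W ⊓ LinearMap.ker (ev i)) S s) : IsCutBy ev H W (insert i S) s := by
  obtain ⟨hs, hs0, hsS, hmax, hU⟩ := h
  refine ⟨hs.1, hs0, fun j hj => ?_, fun v hv hvS => ?_, hU⟩
  · rcases Finset.mem_insert.mp hj with rfl | hj
    · exact hs.2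
    · exact hsS j hj
  · exact hmax v ⟨hv, hvS i (Finset.mem_insert_self i S)⟩
      fun j hj => hvS j (Finset.mem_insert_of_mem hj)

theorem IsCutBy.surjective [FiniteDimensional K V] {ev : ι → V →ₗ[K] K}
    {H : Set (Submodule K V)} {S : Finset ι} {s : V} (h : IsCutBy ev H ⊤ S s)
    (hS : S.card + 1 = Module.finrank K V) :
    Function.Surjective (LinearMap.pi fun i : S => ev i) := by
  obtain ⟨-, hs0, hsS, hmax, -⟩ := h
  set f := LinearMap.pi fun i : S => ev i
  have hker : LinearMap.ker f = K ∙ s := by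
    ext v
    rw [LinearMap.mem_ker, Submodule.mem_span_singleton]
    refine ⟨fun h => ?_, ?_⟩
    · obtain ⟨a, ha⟩ := hmax v Submodule.mem_top fun i hi => congrFun h ⟨i, hi⟩
      exact ⟨a, ha.symm⟩
    · rintro ⟨a, rfl⟩
      funext i
      show ev i.1 (a • s) = 0
      rw [map_smul, hsS i.1 i.2, smul_zero]
  rw [← LinearMap.range_eq_top]
  refine Submodule.eq_top_of_finrank_eq ?_
  have h := f.finrank_range_add_finrank_ker
  rw [hker, finrank_span_singleton hs0] at h
  rw [Module.finrank_fintype_fun_eq_card, Fintype.card_coe]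
  omega

end Fermat.Agent.Pic.Field
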