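import Fermat.Agent.Pic.Cech.Chart
import Fermat.Agent.Pic.Chart.Ops
import Fermat.Agent.Pic.Field.Index
import Fermat.Agent.Pic.Field.PairCut

/-!
# A degree zero datum is a difference of two divisors of the size of the genus

`exists_difference_divisors`: one set of rational points cuts both a large twist of the datum and
the same twist of the structure sheaf down to sections with zeros in the overlap only.
-/

noncomputable section

open TensorProduct
open Fermat.Agent.Pic.Cech

namespace Fermat.Agent.Pic.Field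

universe u

variable {k : Type u} [Field k] [IsAlgClosed k] {C : Cover k} {K : Type u} [Field K] [Algebra k K]

omit [IsAlgClosed k] in
/-- The zeros of a twist have the same number for all invertible data. -/
theorem finrank_zeros_eq (L : Datum C K) (m : ℕ) :
    Module.finrank K (L.toPre.zeros m) = Module.finrank K ((unitPre C K).zeros m) := by
  let S := C.RB1 K
  let I : Ideal S := Ideal.span {C.T1 K ^ m}
  have hI : ∀ (N : Type u) [AddCommGroup N] [Module S N] (x : N),
      x ∈ (I • ⊤ : Submodule S N) ↔ ∃ y, C.T1 K ^ m • y = x := fun N _ _ x => by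
    rw [Submodule.ideal_span_singleton_smul, Submodule.mem_smul_pointwise_iff_exists]
    simp
  have hzero : ∀ (P : Pre C K), (LinearMap.range (P.mulT1 m)) =
      (I • ⊤ : Submodule S P.N1).restrictScalars K := fun P => by
    ext x
    rw [Submodule.restrictScalars_mem, hI]
    exact ⟨fun ⟨y, hy⟩ => ⟨y, hy⟩, fun ⟨y, hy⟩ => ⟨y, hy⟩⟩
  have : Module.Finite (C.RB1 K) (unitPre C K).N1 :=
    inferInstanceAs (Module.Finite (C.RB1 K) (C.RB1 K))
  have : Module.Projective (C.RB1 K) (unitPre C K).N1 :=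
    inferInstanceAs (Module.Projective (C.RB1 K) (C.RB1 K))
  have hfin : Module.Finite K ((unitPre C K).zeros m) := ((unitPre C K).projective_zeros m).1
  let E0 : ((unitPre C K).zeros m) ≃ₗ[K] S ⧸ I.restrictScalars K :=
    Submodule.quotEquivOfEq _ _ ((hzero _).trans (congrArg (Submodule.restrictScalars K)
      (show (I • ⊤ : Submodule S S) = I by rw [smul_eq_mul, Ideal.mul_top])))
  have : Module.Finite K (S ⧸ I) :=
    Module.Finite.equiv (E0 ≪≫ₗ Submodule.Quotient.restrictScalarsEquiv K I)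
  have : IsArtinianRing (S ⧸ I) := IsArtinianRing.of_finite K _
  obtain ⟨E⟩ := Module.Invertible.free_iff_linearEquiv.mp
    (inferInstance : Module.Free (S ⧸ I) ((S ⧸ I) ⊗[S] L.N1))
  let E1 : (S ⧸ I) ≃ₗ[S] L.N1 ⧸ (I • ⊤ : Submodule S L.N1) :=
    (E.restrictScalars S).symm ≪≫ₗ TensorProduct.quotTensorEquivQuotSMul L.N1 I
  exact ((Submodule.quotEquivOfEq _ _ (hzero L.toPre)) ≪≫ₗ
    Submodule.Quotient.restrictScalarsEquiv K _ ≪≫ₗ (E1.symm.restrictScalars K) ≪≫ₗ
    (Submodule.Quotient.restrictScalarsEquiv K I).symm ≪≫ₗ E0.symm).finrank_eq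

variable [C.SmoothCharts] [C.HasPoints]

omit [C.HasPoints] in
/-- A section cut out by rational points gives a divisor of the size of the genus. -/
theorem exists_pt_of_isCutBy (L : Datum C K) {n : ℕ}
    (hn' : Function.Surjective (L.toPre.twist (n + 1)).diff) {S : Finset (C.B01 →ₐ[k] k)}
    {H : Set (Submodule K (L.twist (n + 1)).toPre.H0)} {s : (L.twist (n + 1)).toPre.H0}
    (h : IsCutBy (sectionValue (L.twist (n + 1))) H ⊤ S s)
    (hS : S.card + 1 = Module.finrank K (L.twist (n + 1)).toPre.H0)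
    (h0 : ∀ M : Ideal (C.RB0 K), M.IsMaximal → C.T0 K ∈ M →
      s ∉ vanish0 (L.twist (n + 1)) M)
    (h1 : ∀ M : Ideal (C.RB1 K), M.IsMaximal → C.T1 K ∈ M →
      s ∉ vanish1 (L.twist (n + 1)) M) :
    ∃ (e : ULift.{u} (Fin C.genus) → C.B01) (x : Hilb.Pt k e K),
      Nonempty ((divisorDatum x).toPre.Equiv
        (L.tensor (pointsDatumOver K S (n + 1))).toPre) := by
  have : Module.Finite (C.RB0 K) (L.twist (n + 1)).toPre.N0 :=
    inferInstanceAs (Module.Finite (C.RB0 K) (L.twist (n + 1)).N0)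
  have : FiniteDimensional K (L.twist (n + 1)).toPre.H0 := Pre.finite_H0 _ hn'
  have hsurj := h.surjective hS
  obtain ⟨-, hs0, hsS, hmax, -⟩ := h
  obtain ⟨-, e, v, he⟩ :=
    exists_family_of_cut L hn' hsurj hs0 hsS (fun w => hmax w Submodule.mem_top) h0 h1
  obtain ⟨x, -, hx⟩ := exists_pt_of_cuts _ e v he
  exact ⟨e, x, hx⟩

/-- A datum of degree zero is a difference of two divisors of the size of the genus. -/
theorem exists_difference_divisors (L : Datum C K) (hL : L.toPre.chi = (unitPre C K).chi) :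
    ∃ (e e' : ULift.{u} (Fin C.genus) → C.B01) (x : Hilb.Pt k e K) (y : Hilb.Pt k e' K),
      Nonempty (L.toPre.Equiv ((divisorDatum x).tensor (idealDatum y)).toPre) := by
  let U : Datum C K := unitDatum C K
  obtain ⟨a, ha⟩ := L.toPre.exists_twist_surjective
  obtain ⟨b, hb⟩ := U.toPre.exists_twist_surjective
  let n := max a b
  have hLn := ha n (le_max_left a b)
  have hLn' := ha (n + 1) ((le_max_left a b).trans (Nat.le_succ _))
  have hUn := hb n (le_max_right a b)
  have hUn' := hb (n + 1) ((le_max_right a b).trans (Nat.le_succ _))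
  have := (Cover.HasPoints.infinite_points : Infinite (C.B01 →ₐ[k] k))
  have := Cover.HasPoints.finite_zeros0 (C := C)
  have := C.finite_zeros
  have := finite_quotient_tmul (k := k) (K := K) C.t0
  have := finite_quotient_tmul (k := k) (K := K) C.t1
  have : Module.Finite (C.RB0 K) (L.twist (n + 1)).toPre.N0 :=
    inferInstanceAs (Module.Finite (C.RB0 K) (L.twist (n + 1)).N0)
  have : Module.Finite (C.RB0 K) (U.twist (n + 1)).toPre.N0 :=
    inferInstanceAs (Module.Finite (C.RB0 K) (U.twist (n + 1)).N0)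
  have : FiniteDimensional K (L.twist (n + 1)).toPre.H0 := Pre.finite_H0 _ hLn'
  have : FiniteDimensional K (U.twist (n + 1)).toPre.H0 := Pre.finite_H0 _ hUn'
  have hrank : Module.finrank K (L.twist (n + 1)).toPre.H0 =
      Module.finrank K (U.twist (n + 1)).toPre.H0 := by
    have h1 : L.toPre.chi = (Module.finrank K (L.twist (n + 1)).toPre.H0 : ℤ) -
        Module.finrank K (L.toPre.zeros (n + 1)) := (L.toPre.chi_twist hLn').2.2
    have h2 : U.toPre.chi = (Module.finrank K (U.twist (n + 1)).toPre.H0 : ℤ) -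
        Module.finrank K (U.toPre.zeros (n + 1)) := (U.toPre.chi_twist hUn').2.2
    have h3 : U.toPre.chi = (unitPre C K).chi := rfl
    rw [finrank_zeros_eq] at h1 h2
    omega
  let H (M : Datum C K) : Set (Submodule K (M.twist (n + 1)).toPre.H0) :=
    vanish0 (M.twist (n + 1)) '' {I | I.IsMaximal ∧ C.T0 K ∈ I} ∪
      vanish1 (M.twist (n + 1)) '' {I | I.IsMaximal ∧ C.T1 K ∈ I}
  have hH : ∀ M, (H M).Finite := fun M =>
    ((finite_maximal_containing (K := K) (C.T0 K)).image _).union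
      ((finite_maximal_containing (K := K) (C.T1 K)).image _)
  have htop : ∀ M : Datum C K, Function.Surjective (M.toPre.twist n).diff →
      ∀ V ∈ H M, ¬ ⊤ ≤ V := by
    rintro M hM _ (⟨I, hI, rfl⟩ | ⟨I, hI, rfl⟩) hle
    · exact vanish0_ne_top M hM hI.1 hI.2 (top_le_iff.mp hle)
    · exact vanish1_ne_top M hM hI.1 hI.2 (top_le_iff.mp hle)
  have hpos := finrank_H0_twist_pos L hLn
  obtain ⟨r, hr⟩ : ∃ r, Module.finrank K (L.twist (n + 1)).toPre.H0 = r + 1 :=
    ⟨_, (Nat.sub_add_cancel hpos).symm⟩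
  classical
  have hz := Cover.HasPoints.finite_zero_points (C := C)
  obtain ⟨S, hS, -, s, s', hs, hs'⟩ := exists_pair_cut_aux
    (sectionValue (L.twist (n + 1))) (fun q hq => finite_sectionValue_zero _ hz hq) (H L) (hH L)
    (sectionValue (U.twist (n + 1))) (fun q hq => finite_sectionValue_zero _ hz hq) (H U) (hH U)
    r ⊤ ⊤ (by rw [finrank_top, hr]) (by rw [finrank_top, ← hrank, hr]) (htop L hLn) (htop U hUn) ∅
  obtain ⟨e, x, ⟨Ex⟩⟩ := exists_pt_of_isCutBy L hLn' hs (by rw [hS, hr])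
    (fun I hI hT => hs.2.2.2.2 _ (Or.inl ⟨I, ⟨hI, hT⟩, rfl⟩))
    (fun I hI hT => hs.2.2.2.2 _ (Or.inr ⟨I, ⟨hI, hT⟩, rfl⟩))
  obtain ⟨e', y, ⟨Ey⟩⟩ := exists_pt_of_isCutBy U hUn' hs' (by rw [hS, ← hrank, hr])
    (fun I hI hT => hs'.2.2.2.2 _ (Or.inl ⟨I, ⟨hI, hT⟩, rfl⟩))
    (fun I hI hT => hs'.2.2.2.2 _ (Or.inr ⟨I, ⟨hI, hT⟩, rfl⟩))
  refine ⟨e, e', x, y, ⟨?_⟩⟩
  let N : Datum C K := pointsDatumOver K S (n + 1)
  let EN : N.toPre.Equiv (divisorDatum y).toPre :=
    ((N.tensorUnit.symm.trans (Datum.tensorComm N (unitDatum C K))).trans Ey.symm)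
  let EI : (idealDatum y).toPre.Equiv N.dual.toPre :=
    (idealDatum y).evalEquiv.trans EN.dual
  exact (L.cancelDual' N).symm.trans
      ((Datum.tensorCongr Ex.symm (Pre.Equiv.refl N.dual.toPre)).trans
    (Datum.tensorCongr (Pre.Equiv.refl _) EI.symm))

end Fermat.Agent.Pic.Field
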