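import Fermat.Agent.Pic.Cech.IdealTensor
import Fermat.Agent.Pic.Cech.TensorFin
import Fermat.Agent.Pic.Field.Family
import Fermat.Agent.Pic.Power.Graph

/-!
# Divisors as sums of rational points

Over an algebraically closed field the datum of a finite quotient of the overlap, hence every
datum with a cutting section, is a tensor product of divisors of rational points.
-/

noncomputable section

open TensorProduct
open Fermat.Agent.Pic.Cech Fermat.Agent.Pic.Power

namespace Fermat.Agent.Pic.Field

universe u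

variable {k : Type u} [Field k] [IsAlgClosed k] {C : Cover k}

omit [IsAlgClosed k] in
/-- Division by a larger ideal on the overlap. -/
theorem exists_mul_eq_of_le [C.SmoothCharts] {I m : Ideal (C.RB01 k)} (h : I ≤ m) :
    ∃ J, m * J = I := by
  have := Cover.SmoothCharts.dedekind01 (C := C)
  let E : C.RB01 k ≃+* C.B01 := (Algebra.TensorProduct.lid k C.B01).toRingEquiv
  obtain ⟨J, hJ⟩ := Ideal.dvd_iff_le.mpr (Ideal.map_mono (f := (E : C.RB01 k →+* C.B01)) h)
  refine ⟨J.map (E.symm : C.B01 →+* C.RB01 k), ?_⟩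
  have h' := congrArg (Ideal.map (E.symm : C.B01 →+* C.RB01 k)) hJ
  rw [Ideal.map_mul, Ideal.map_of_equiv E, Ideal.map_of_equiv E] at h'
  exact h'.symm

/-- A proper ideal of finite codimension is contained in that of a rational point. -/
theorem exists_le_homPt (I : Ideal (C.RB01 k)) (hI : I ≠ ⊤)
    [Module.Finite k (C.RB01 k ⧸ I)] :
    ∃ P : C.B01 →ₐ[k] k, I ≤ (homPt P).ideal := by
  obtain ⟨m, hm, hle⟩ := Ideal.exists_le_maximal I hI
  let _ : Field (C.RB01 k ⧸ m) := Ideal.Quotient.field m
  have : Module.Finite k (C.RB01 k ⧸ m) :=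
    Module.Finite.of_surjective (Ideal.Quotient.factorₐ k hle).toLinearMap
      (Ideal.Quotient.factor_surjective hle)
  have hbij : Function.Bijective (Algebra.ofId k (C.RB01 k ⧸ m)) :=
    IsAlgClosed.algebraMap_bijective_of_isIntegral (k := k) (K := C.RB01 k ⧸ m)
  let χ : C.RB01 k →ₐ[k] k :=
    (AlgEquiv.ofBijective _ hbij).symm.toAlgHom.comp (Ideal.Quotient.mkₐ k m)
  refine ⟨χ.comp Algebra.TensorProduct.includeRight, fun z hz => ?_⟩
  rw [mem_homPt_ideal]
  have h : ∀ w, Algebra.TensorProduct.lift (AlgHom.id k k)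
      (χ.comp Algebra.TensorProduct.includeRight) (fun _ _ => mul_comm _ _) w = χ w := fun w => by
    induction w using TensorProduct.induction_on with
    | zero => simp
    | tmul a b =>
      rw [Algebra.TensorProduct.lift_tmul, AlgHom.id_apply, AlgHom.comp_apply,
        Algebra.TensorProduct.includeRight_apply, ← smul_eq_mul, ← map_smul,
          TensorProduct.smul_tmul',
        smul_eq_mul, mul_one]
    | add x y hx hy => rw [map_add, map_add, hx, hy]
  rw [h]
  show (AlgEquiv.ofBijective _ hbij).symm (Ideal.Quotient.mk m z) = 0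
  rw [Ideal.Quotient.eq_zero_iff_mem.mpr (hle hz), map_zero]

variable {ι : Type u} [Fintype ι] [DecidableEq ι] {e : ι → C.B01}

omit [IsAlgClosed k] in
theorem finrank_quot_ideal (x : Hilb.Pt k e k) :
    Module.Finite k (C.RB01 k ⧸ x.ideal.restrictScalars k) ∧
      Module.finrank k (C.RB01 k ⧸ x.ideal.restrictScalars k) = Fintype.card ι := by
  let E := LinearEquiv.ofBijective _ x.bijective_ideal
  exact ⟨Module.Finite.equiv E, by rw [← E.finrank_eq, Module.finrank_pi]⟩

omit [IsAlgClosed k] in
/-- Multiplying by a point adds one to the codimension. -/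
theorem finrank_quot_mul {A : Type u} [CommRing A] [Algebra k A] {m J I : Ideal A} [m.IsMaximal]
    (hm : Module.finrank k (A ⧸ m) = 1) [Module.Invertible A J] (h : m * J = I)
    [Module.Finite k (A ⧸ I.restrictScalars k)] :
    Module.finrank k (A ⧸ I.restrictScalars k) =
      Module.finrank k (A ⧸ J.restrictScalars k) + 1 := by
  let _ : Field (A ⧸ m) := Ideal.Quotient.field m
  obtain ⟨F⟩ := Module.Invertible.free_iff_linearEquiv.mp
    (inferInstance : Module.Free (A ⧸ m) ((A ⧸ m) ⊗[A] ↥J))
  let G : (↥J ⧸ (m • ⊤ : Submodule A ↥J)) ≃ₗ[A] A ⧸ m :=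
    (TensorProduct.quotTensorEquivQuotSMul (↥J) m).symm ≪≫ₗ F.restrictScalars A
  have hle : I.restrictScalars k ≤ J.restrictScalars k := fun a ha => by
    have ha' : a ∈ m * J := h.symm ▸ ha
    exact Ideal.mul_le_right ha'
  let W := (J.restrictScalars k).map (I.restrictScalars k).mkQ
  let φ : ↥J →ₗ[k] W :=
    LinearMap.codRestrict W ((I.restrictScalars k).mkQ ∘ₗ (J.subtype.restrictScalars k))
      fun a => ⟨a.1, a.2, rfl⟩
  have hφ : Function.Surjective φ := by
    rintro ⟨_, a, ha, rfl⟩
    exact ⟨⟨a, ha⟩, rfl⟩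
  have hker : LinearMap.ker φ = (m • ⊤ : Submodule A ↥J).restrictScalars k := by
    ext a
    have hmap : (m • ⊤ : Submodule A ↥J).map J.subtype = m * J := by
      rw [Submodule.map_smul'', Submodule.map_subtype_top, smul_eq_mul]
    rw [LinearMap.mem_ker, Submodule.restrictScalars_mem, Subtype.ext_iff]
    show (I.restrictScalars k).mkQ a.1 = 0 ↔ _
    rw [Submodule.mkQ_apply, Submodule.Quotient.mk_eq_zero, Submodule.restrictScalars_mem, ← h,
        ← hmap]
    exact ⟨fun ⟨b, hb, hba⟩ => Subtype.ext hba ▸ hb, fun ha => ⟨a, ha, rfl⟩⟩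
  have hW : Module.finrank k W = 1 := by
    rw [← (Submodule.quotEquivOfEq _ _ hker.symm ≪≫ₗ φ.quotKerEquivOfSurjective hφ).finrank_eq,
      (Submodule.Quotient.restrictScalarsEquiv k _).finrank_eq,
        (G.restrictScalars k).finrank_eq, hm]
  rw [← Submodule.finrank_quotient_add_finrank W, hW,
    (Submodule.quotientQuotientEquivQuotient _ _ hle).finrank_eq]

variable [C.SmoothCharts]

/-- An empty quotient has the trivial ideal datum. -/
theorem nonempty_idealDatum_of_card_zero (x : Hilb.Pt k e k) (h : Fintype.card ι = 0) :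
    Nonempty ((idealDatum x).toPre.Equiv (unitDatum C k).toPre) := by
  have : IsEmpty ι := Fintype.card_eq_zero_iff.mp h
  have htop : x.ideal = ⊤ := eq_top_iff.mpr fun t _ => Subsingleton.elim _ _
  have h0 : (pt0 x).ideal = ⊤ := by rw [ideal_pt0, htop, Ideal.comap_top]
  have h1 : (pt1 x).ideal = ⊤ := by rw [ideal_pt1, htop, Ideal.comap_top]
  exact ⟨{ e0 := LinearEquiv.ofTop _ h0
           e1 := LinearEquiv.ofTop _ h1
           e01 := LinearEquiv.ofTop _ htop
           comm0 := fun _ => rfl
           comm1 := fun _ => rfl }⟩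

/-- Taking one point off a divisor. -/
theorem exists_point_step (x : Hilb.Pt k e k) {n : ℕ} (hn : Fintype.card ι = n + 1) :
    ∃ (P : C.B01 →ₐ[k] k) (N : ℕ) (e' : ULift.{u} (Fin N) → C.B01) (y : Hilb.Pt k e' k),
      Fintype.card (ULift.{u} (Fin N)) = n ∧
        Nonempty (((idealDatum (homPt P)).tensor (idealDatum y)).toPre.Equiv
          (idealDatum x).toPre) := by
  obtain ⟨hfin, hrank⟩ := finrank_quot_ideal x
  have : Module.Finite k (C.RB01 k ⧸ x.ideal) :=
    Module.Finite.equiv (Submodule.Quotient.restrictScalarsEquiv k x.ideal)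
  have hne : x.ideal ≠ ⊤ := fun h => by
    rw [h, Submodule.restrictScalars_top, Module.finrank_zero_of_subsingleton, hn] at hrank
    omega
  obtain ⟨P, hP⟩ := exists_le_homPt x.ideal hne
  obtain ⟨hPfin, hPrank⟩ := finrank_quot_ideal (homPt P)
  have hsurj : Function.Surjective (Algebra.TensorProduct.lift (AlgHom.id k k) P
      (fun _ _ => mul_comm _ _) : C.RB01 k →ₐ[k] k) := fun a =>
    ⟨a ⊗ₜ 1, by rw [Algebra.TensorProduct.lift_tmul, map_one, mul_one, AlgHom.id_apply]⟩
  have : (homPt P).ideal.IsMaximal := by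
    have hker : (homPt P).ideal = RingHom.ker (Algebra.TensorProduct.lift (AlgHom.id k k) P
        (fun _ _ => mul_comm _ _) : C.RB01 k →ₐ[k] k) :=
      Ideal.ext fun z => (mem_homPt_ideal (φ := P) (z := z)).trans RingHom.mem_ker.symm
    rw [hker]
    exact RingHom.ker_isMaximal_of_surjective _ hsurj
  have hm1 : Module.finrank k (C.RB01 k ⧸ (homPt P).ideal) = 1 := by
    rw [← (Submodule.Quotient.restrictScalarsEquiv k (homPt P).ideal).finrank_eq, hPrank,
      Fintype.card_punit]
  obtain ⟨J, hJ⟩ := exists_mul_eq_of_le hP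
  have hle : x.ideal.restrictScalars k ≤ J.restrictScalars k := fun a ha => by
    have ha' : a ∈ (homPt P).ideal * J := hJ.symm ▸ ha
    exact Ideal.mul_le_right ha'
  have : Module.Finite k (C.RB01 k ⧸ J.restrictScalars k) :=
    Module.Finite.of_surjective (Submodule.factor hle) (Submodule.factor_surjective hle)
  obtain ⟨N, e', he'⟩ := exists_tmul_basis (J.restrictScalars k)
  let y : Hilb.Pt k e' k := Hilb.Pt.ofIdeal e' J he'
  have hy : y.ideal = J := Hilb.Pt.ideal_ofIdeal _ _
  have : Module.Invertible (C.RB01 k) ↥J := hy ▸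
    inferInstanceAs (Module.Invertible (C.RB01 k) (idealDatum y).N01)
  have hcount : Fintype.card (ULift.{u} (Fin N)) = n := by
    have h2 := (finrank_quot_ideal y).2
    rw [hy] at h2
    have h3 := finrank_quot_mul hm1 hJ
    rw [hrank, h2, hn] at h3
    omega
  exact ⟨P, N, e', y, hcount, nonempty_idealDatum_tensor (homPt P) y x (by rw [hy, hJ])⟩

/-- The ideal datum of a quotient is the product of those of rational points. -/
theorem exists_tensorFin_homPt (x : Hilb.Pt k e k) :
    ∃ P : Fin (Fintype.card ι) → (C.B01 →ₐ[k] k),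
      Nonempty ((idealDatum x).toPre.Equiv
        (tensorFin fun j => idealDatum (homPt (P j))).toPre) := by
  suffices h : ∀ n, Fintype.card ι = n → ∃ P : Fin n → (C.B01 →ₐ[k] k),
      Nonempty ((idealDatum x).toPre.Equiv (tensorFin fun j => idealDatum (homPt (P j))).toPre) from
    h _ rfl
  intro n
  induction n generalizing ι with
  | zero => exact fun hn => ⟨Fin.elim0, nonempty_idealDatum_of_card_zero x hn⟩
  | succ n ih =>
    intro hn
    obtain ⟨P, N, e', y, hy, ⟨T⟩⟩ := exists_point_step x hn
    obtain ⟨Q, ⟨E⟩⟩ := ih y hy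
    refine ⟨Fin.snoc Q P, ⟨(T.symm.trans (Datum.tensorComm _ _)).trans
      (Datum.tensorCongr (L' := tensorFin fun j : Fin n =>
        idealDatum (homPt ((Fin.snoc Q P : Fin (n + 1) → (C.B01 →ₐ[k] k)) j.castSucc)))
        (M' := idealDatum (homPt ((Fin.snoc Q P : Fin (n + 1) → (C.B01 →ₐ[k] k)) (Fin.last n))))
        (E.trans (tensorFinCongr fun j => equivOfEq (by rw [Fin.snoc_castSucc])))
        (equivOfEq (by rw [Fin.snoc_last])))⟩⟩

end Fermat.Agent.Pic.Field

end
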